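import Mathlib

/-!
# S17 block UNIF: Nullstellensatz certificates and uniform local lower bounds
-/

set_option autoImplicit false

namespace S17Lib

open MvPolynomial

/-- (U1) Weak Nullstellensatz over a field `K` with points in `AlgebraicClosure K`. -/
theorem exists_cert {K : Type*} [Field K] {σ : Type*} [Finite σ] {ι' : Type*} [Fintype ι']
    (I : Set (MvPolynomial σ K)) (p : ι' → MvPolynomial σ K)
    (h : ∀ x : σ → AlgebraicClosure K, (∀ f ∈ I, aeval x f = 0) → ∃ j, aeval x (p j) ≠ 0) :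
    ∃ q : ι' → MvPolynomial σ K, (1 - ∑ j, q j * p j) ∈ Ideal.span I := by
  classical
  set J : Ideal (MvPolynomial σ K) := Ideal.span I ⊔ Ideal.span (Set.range p) with hJ
  have hJtop : J = ⊤ := by
    by_contra hne
    obtain ⟨m, hm, hle⟩ := Ideal.exists_le_maximal J hne
    let _ : Field (MvPolynomial σ K ⧸ m) := Ideal.Quotient.field m
    have : Algebra.FiniteType K (MvPolynomial σ K ⧸ m) :=
      Algebra.FiniteType.of_surjective (Ideal.Quotient.mkₐ K m) (Ideal.Quotient.mkₐ_surjective K m)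
    have : Module.Finite K (MvPolynomial σ K ⧸ m) :=
      finite_of_finite_type_of_isJacobsonRing K (MvPolynomial σ K ⧸ m)
    have : Algebra.IsAlgebraic K (MvPolynomial σ K ⧸ m) := Algebra.IsAlgebraic.of_finite K _
    let ψ : (MvPolynomial σ K ⧸ m) →ₐ[K] AlgebraicClosure K := IsAlgClosed.lift
    let φ : MvPolynomial σ K →ₐ[K] AlgebraicClosure K := ψ.comp (Ideal.Quotient.mkₐ K m)
    have hφ : ∀ f, aeval (fun i => φ (X i)) f = φ f := by
      intro f
      have : aeval (fun i => φ (X i)) = φ := by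
        apply MvPolynomial.algHom_ext
        intro i
        simp
      rw [this]
    have hz : ∀ f ∈ J, φ f = 0 := by
      intro f hf
      have h0 : (Ideal.Quotient.mk m) f = 0 := Ideal.Quotient.eq_zero_iff_mem.mpr (hle hf)
      show ψ ((Ideal.Quotient.mkₐ K m) f) = 0
      rw [Ideal.Quotient.mkₐ_eq_mk, h0, map_zero]
    obtain ⟨j, hj⟩ := h (fun i => φ (X i)) (fun f hf => by
      rw [hφ]
      exact hz f (Ideal.mem_sup_left (Ideal.subset_span hf)))
    apply hj
    rw [hφ]
    exact hz _ (Ideal.mem_sup_right (Ideal.subset_span ⟨j, rfl⟩))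
  have h1 : (1 : MvPolynomial σ K) ∈ J := by rw [hJtop]; trivial
  obtain ⟨a, ha, b, hb, hab⟩ := Submodule.mem_sup.mp h1
  obtain ⟨q, hq⟩ := (Ideal.mem_span_range_iff_exists_fun).mp hb
  refine ⟨q, ?_⟩
  rw [hq, ← hab]
  simpa using ha

end S17Lib
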