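import Mathlib

/-!
# S17 block UNIF: from local (per place) inequalities to inequalities of heights
-/

set_option autoImplicit false

namespace S17Lib

open Height Height.AdmissibleAbsValues Function

variable {K : Type*} [Field K] [AdmissibleAbsValues K]

theorem hfms_iSup {ι : Type*} [Finite ι] {x : ι → K} (hx : x ≠ 0) :
    (fun v : nonarchAbsVal (K := K) ↦ ⨆ i, v.val (x i)).HasFiniteMulSupport := by
  have : Nonempty {j // x j ≠ 0} := nonempty_subtype.mpr <| ne_iff.mp hx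
  suffices (fun v : nonarchAbsVal (K := K) ↦
      ⨆ i : {j // x j ≠ 0}, v.val (x i)).HasFiniteMulSupport by
    convert this with v
    obtain ⟨i, hi⟩ : ∃ j, x j ≠ 0 := Function.ne_iff.mp hx
    have : Nonempty ι := .intro i
    refine le_antisymm (ciSup_le fun j ↦ ?_) (ciSup_le fun ⟨j, hj⟩ ↦ Finite.le_ciSup_of_le j le_rfl)
    rcases eq_or_ne (x j) 0 with h | h
    · rw [h, v.val.map_zero]
      exact Real.iSup_nonneg' ⟨⟨i, hi⟩, v.val.nonneg ..⟩
    · exact Finite.le_ciSup_of_le ⟨j, h⟩ le_rfl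
  fun_prop (disch := grind)

/-- the global constant attached to local constants -/
noncomputable def gconst (cA cN : AbsoluteValue K ℝ → ℝ) : ℝ :=
  (archAbsVal.map cA).prod * ∏ᶠ v : nonarchAbsVal (K := K), cN v.val

theorem gconst_nonneg {cA cN : AbsoluteValue K ℝ → ℝ} (hcA : ∀ v, 0 ≤ cA v) (hcN : ∀ v, 0 ≤ cN v) :
    0 ≤ gconst cA cN :=
  mul_nonneg (Multiset.prod_map_nonneg fun v _ ↦ hcA v) (finprod_nonneg fun v ↦ hcN v.val)

theorem mulHeight_le_of_local {κ ι' : Type*} [Finite κ] [Finite ι']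
    (cA cN : AbsoluteValue K ℝ → ℝ) (hcA : ∀ v, 0 ≤ cA v) (hcN : ∀ v, 0 ≤ cN v)
    (hfin : (fun v : nonarchAbsVal (K := K) ↦ cN v.val).HasFiniteMulSupport)
    {w : κ → K} {y : ι' → K} (hw : w ≠ 0) (hy : y ≠ 0)
    (hA : ∀ v ∈ archAbsVal (K := K), (⨆ k, v (w k)) ≤ cA v * ⨆ j, v (y j))
    (hN : ∀ v ∈ nonarchAbsVal (K := K), (⨆ k, v (w k)) ≤ cN v * ⨆ j, v (y j)) :
    mulHeight w ≤ gconst cA cN * mulHeight y := by
  rw [mulHeight_eq hw, mulHeight_eq hy, gconst, mul_mul_mul_comm]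
  have F1 := hfms_iSup hw
  have F2 := hfms_iSup hy
  gcongr
  · exact finprod_nonneg fun _ ↦ Real.iSup_nonneg_of_nonnegHomClass ..
  · exact mul_nonneg (Multiset.prod_map_nonneg fun v _ ↦ hcA v)
      (Multiset.prod_map_nonneg fun _ _ ↦ Real.iSup_nonneg_of_nonnegHomClass ..)
  · rw [← Multiset.prod_map_mul]
    exact Multiset.prod_map_le_prod_map₀ _ _ (fun _ _ ↦ Real.iSup_nonneg_of_nonnegHomClass ..)
      fun v hv ↦ hA v hv
  · rw [← finprod_mul_distrib hfin F2]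
    exact finprod_le_finprod F1 (fun _ ↦ Real.iSup_nonneg_of_nonnegHomClass ..) (hfin.mul F2)
      fun v ↦ hN v.val v.prop

end S17Lib
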