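import Mathlib
import Fermat.Agent.S17.Unif

/-!
# S17 block UNIF: local bounds for polynomial values at points of the unit polydisc
-/

set_option autoImplicit false

namespace S17Lib

open MvPolynomial

variable {K : Type*} [Field K] {σ : Type*}

/-- archimedean local constant of a polynomial: sum of the absolute values of the coefficients -/
noncomputable def cArch (v : AbsoluteValue K ℝ) (q : MvPolynomial σ K) : ℝ :=
  ∑ m ∈ q.support, v (coeff m q)

/-- nonarchimedean local constant of a polynomial -/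
noncomputable def cNon (v : AbsoluteValue K ℝ) (q : MvPolynomial σ K) : ℝ :=
  ∏ m ∈ q.support, max (v (coeff m q)) 1

theorem cArch_nonneg (v : AbsoluteValue K ℝ) (q : MvPolynomial σ K) : 0 ≤ cArch v q :=
  Finset.sum_nonneg fun _ _ ↦ v.nonneg _

theorem one_le_cNon (v : AbsoluteValue K ℝ) (q : MvPolynomial σ K) : 1 ≤ cNon v q := by
  classical
  unfold cNon
  induction q.support using Finset.induction_on with
  | empty => simp
  | insert a s ha ih =>
    rw [Finset.prod_insert ha]
    exact one_le_mul_of_one_le_of_one_le (le_max_right _ _) ih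

theorem coeff_le_cNon (v : AbsoluteValue K ℝ) (q : MvPolynomial σ K) (m : σ →₀ ℕ)
    (hm : m ∈ q.support) : v (coeff m q) ≤ cNon v q := by
  classical
  unfold cNon
  rw [← Finset.mul_prod_erase _ _ hm]
  have h1 : (1 : ℝ) ≤ ∏ x ∈ q.support.erase m, max (v (coeff x q)) 1 := by
    induction q.support.erase m using Finset.induction_on with
    | empty => simp
    | insert a s ha ih =>
      rw [Finset.prod_insert ha]
      exact one_le_mul_of_one_le_of_one_le (le_max_right _ _) ih
  calc v (coeff m q) ≤ max (v (coeff m q)) 1 := le_max_left _ _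
    _ = max (v (coeff m q)) 1 * 1 := (mul_one _).symm
    _ ≤ _ := by gcongr

theorem monomial_le_one (v : AbsoluteValue K ℝ) (x : σ → K) (hx : ∀ i, v (x i) ≤ 1)
    (m : σ →₀ ℕ) : v (∏ i ∈ m.support, x i ^ m i) ≤ 1 := by
  rw [map_prod]
  refine Finset.prod_le_one (fun i _ ↦ v.nonneg _) fun i _ ↦ ?_
  rw [map_pow]
  exact pow_le_one₀ (v.nonneg _) (hx i)

theorem eval_le_cArch (v : AbsoluteValue K ℝ) (q : MvPolynomial σ K) (x : σ → K)
    (hx : ∀ i, v (x i) ≤ 1) : v (eval x q) ≤ cArch v q := by
  rw [eval_eq, cArch]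
  refine (v.sum_le _ _).trans (Finset.sum_le_sum fun m _ ↦ ?_)
  rw [map_mul]
  exact mul_le_of_le_one_right (v.nonneg _) (monomial_le_one v x hx m)

theorem eval_le_cNon {v : AbsoluteValue K ℝ} (hv : IsNonarchimedean v) (q : MvPolynomial σ K)
    (x : σ → K) (hx : ∀ i, v (x i) ≤ 1) : v (eval x q) ≤ cNon v q := by
  rcases eq_or_ne q 0 with rfl | hq
  · simpa using (zero_le_one.trans (one_le_cNon v (0 : MvPolynomial σ K)))
  rw [eval_eq]
  obtain ⟨s, hs₁, hs₂⟩ :=
    hv.finset_image_add_of_nonempty (fun d ↦ coeff d q * ∏ i ∈ d.support, x i ^ d i)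
      (support_nonempty.mpr hq)
  refine hs₂.trans ?_
  rw [map_mul]
  exact (mul_le_of_le_one_right (v.nonneg _) (monomial_le_one v x hx s)).trans
    (coeff_le_cNon v q s hs₁)

/-- evaluation kills the span of polynomials vanishing at the point -/
theorem eval_eq_zero_of_mem_span {I : Set (MvPolynomial σ K)} {x : σ → K}
    (hx : ∀ f ∈ I, eval x f = 0) {g : MvPolynomial σ K} (hg : g ∈ Ideal.span I) :
    eval x g = 0 := by
  have : Ideal.span I ≤ RingHom.ker (eval x) := Ideal.span_le.mpr fun f hf ↦ hx f hf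
  exact this hg

/-- (U2), archimedean form. -/
theorem one_le_of_cert_arch {ι' : Type*} [Fintype ι'] {I : Set (MvPolynomial σ K)}
    {p q : ι' → MvPolynomial σ K} (hq : (1 - ∑ j, q j * p j) ∈ Ideal.span I)
    (v : AbsoluteValue K ℝ) (x : σ → K) (hx : ∀ i, v (x i) ≤ 1) (hxI : ∀ f ∈ I, eval x f = 0) :
    1 ≤ (∑ j, cArch v (q j)) * ⨆ j, v (eval x (p j)) := by
  have h0 := eval_eq_zero_of_mem_span hxI hq
  have h1 : (1 : K) = ∑ j, eval x (q j) * eval x (p j) := by
    simpa [sub_eq_zero] using h0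
  calc (1 : ℝ) = v 1 := (map_one v).symm
    _ = v (∑ j, eval x (q j) * eval x (p j)) := by rw [← h1]
    _ ≤ ∑ j, v (eval x (q j) * eval x (p j)) := v.sum_le _ _
    _ ≤ ∑ j, cArch v (q j) * ⨆ j, v (eval x (p j)) := by
        refine Finset.sum_le_sum fun j _ ↦ ?_
        rw [map_mul]
        exact mul_le_mul (eval_le_cArch v _ x hx)
          (Finite.le_ciSup (fun j ↦ v (eval x (p j))) j) (v.nonneg _) (cArch_nonneg _ _)
    _ = _ := by rw [Finset.sum_mul]

/-- (U2), nonarchimedean form. -/
theorem one_le_of_cert_non {ι' : Type*} [Fintype ι'] {I : Set (MvPolynomial σ K)}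
    {p q : ι' → MvPolynomial σ K} (hq : (1 - ∑ j, q j * p j) ∈ Ideal.span I)
    {v : AbsoluteValue K ℝ} (hv : IsNonarchimedean v) (x : σ → K) (hx : ∀ i, v (x i) ≤ 1)
    (hxI : ∀ f ∈ I, eval x f = 0) :
    1 ≤ (∏ j, cNon v (q j)) * ⨆ j, v (eval x (p j)) := by
  classical
  have h0 := eval_eq_zero_of_mem_span hxI hq
  have h1 : (1 : K) = ∑ j, eval x (q j) * eval x (p j) := by
    simpa [sub_eq_zero] using h0
  have hne : (Finset.univ : Finset ι').Nonempty := by
    by_contra hemp
    rw [Finset.not_nonempty_iff_eq_empty] at hemp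
    rw [hemp] at h1
    simp at h1
  obtain ⟨j, -, hj⟩ := hv.finset_image_add_of_nonempty
    (fun j ↦ eval x (q j) * eval x (p j)) hne
  have hprod : cNon v (q j) ≤ ∏ j, cNon v (q j) := by
    rw [← Finset.mul_prod_erase _ _ (Finset.mem_univ j)]
    have h1 : (1 : ℝ) ≤ ∏ x ∈ Finset.univ.erase j, cNon v (q x) := by
      induction Finset.univ.erase j using Finset.induction_on with
      | empty => simp
      | insert a s ha ih =>
        rw [Finset.prod_insert ha]
        exact one_le_mul_of_one_le_of_one_le (one_le_cNon _ _) ih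
    calc cNon v (q j) = cNon v (q j) * 1 := (mul_one _).symm
      _ ≤ _ := by
        have := zero_le_one.trans (one_le_cNon v (q j))
        gcongr
  calc (1 : ℝ) = v 1 := (map_one v).symm
    _ = v (∑ j, eval x (q j) * eval x (p j)) := by rw [← h1]
    _ ≤ v (eval x (q j) * eval x (p j)) := hj
    _ = v (eval x (q j)) * v (eval x (p j)) := map_mul _ _ _
    _ ≤ (∏ j, cNon v (q j)) * ⨆ j, v (eval x (p j)) :=
        mul_le_mul ((eval_le_cNon hv _ x hx).trans hprod)
          (Finite.le_ciSup (fun j ↦ v (eval x (p j))) j) (v.nonneg _)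
          (zero_le_one.trans ((one_le_cNon v (q j)).trans hprod))

end S17Lib
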