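import Mathlib
import Fermat.Agent.S17.Unif
import Fermat.Agent.S17.UnifGlob
import Fermat.Agent.S17.UnifLoc

/-!
# S17 block UNIF: (HM) multihomogeneous height inequalities on closed multicones

Variables `σ`, blocks given by a map `b : σ → α`.  A point `x : σ → K` has blocks
`blk b x a : {i // b i = a} → K`.
-/

set_option autoImplicit false

namespace S17Lib

open MvPolynomial Height Height.AdmissibleAbsValues Function

variable {K : Type*} [Field K] {σ α : Type*}

/-- the block `a` of a point -/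
def blk (b : σ → α) (x : σ → K) (a : α) : {i // b i = a} → K := fun i ↦ x i.1

/-- blockwise scaling of a point -/
def scl (b : σ → α) (s : α → K) (x : σ → K) : σ → K := fun i ↦ s (b i) * x i

/-- semantic multihomogeneity of multidegree `N` -/
def IsMultiHom [Fintype α] (b : σ → α) (N : α → ℕ) (p : MvPolynomial σ K) : Prop :=
  ∀ (s : α → K) (x : σ → K), eval (scl b s x) p = (∏ a, s a ^ N a) * eval x p

/-- the zero set of `I` is stable under blockwise scaling -/
def IsCone (b : σ → α) (I : Set (MvPolynomial σ K)) : Prop :=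
  ∀ (s : α → K) (x : σ → K), (∀ a, s a ≠ 0) → (∀ f ∈ I, eval x f = 0) →
    ∀ f ∈ I, eval (scl b s x) f = 0

/-- charts -/
abbrev Ch (b : σ → α) : Type _ := (a : α) → {i // b i = a}

/-- the Segre-Veronese vector -/
def segv [Fintype α] (b : σ → α) (N : α → ℕ) (x : σ → K) : Ch b → K :=
  fun κ ↦ ∏ a, x (κ a).1 ^ N a

theorem exists_chart [Finite σ] (b : σ → α) (v : AbsoluteValue K ℝ) (x : σ → K)
    (hx : ∀ a, blk b x a ≠ 0) :
    ∃ k : Ch b, (∀ a, x (k a).1 ≠ 0) ∧ ∀ i, v (x i) ≤ v (x (k (b i)).1) := by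
  have h : ∀ a, ∃ i0 : {i // b i = a}, x i0.1 ≠ 0 ∧ ∀ i : {i // b i = a}, v (x i.1) ≤ v (x i0.1) := by
    intro a
    obtain ⟨i1, hi1⟩ := Function.ne_iff.mp (hx a)
    have : Nonempty {i // b i = a} := ⟨i1⟩
    obtain ⟨i0, hi0⟩ := Finite.exists_max (fun i : {i // b i = a} ↦ v (x i.1))
    refine ⟨i0, ?_, hi0⟩
    intro h0
    have h1 := hi0 i1
    rw [h0, map_zero] at h1
    have h2 : x i1.1 ≠ 0 := hi1
    exact absurd h1 (not_le.mpr (v.pos h2))
  choose k hk1 hk2 using h
  exact ⟨k, hk1, fun i ↦ hk2 (b i) ⟨i, rfl⟩⟩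

section normalise

variable (b : σ → α) (x : σ → K) (k : Ch b)

/-- the point normalised in the chart `k` -/
def nrm : σ → K := scl b (fun a ↦ (x (k a).1)⁻¹) x

theorem nrm_chart (hk : ∀ a, x (k a).1 ≠ 0) (a : α) : nrm b x k (k a).1 = 1 := by
  unfold nrm scl
  rw [(k a).2]
  exact inv_mul_cancel₀ (hk a)

theorem nrm_le_one (v : AbsoluteValue K ℝ) (hk : ∀ a, x (k a).1 ≠ 0)
    (hmax : ∀ i, v (x i) ≤ v (x (k (b i)).1)) (i : σ) : v (nrm b x k i) ≤ 1 := by
  unfold nrm scl
  rw [map_mul, map_inv₀, inv_mul_le_iff₀ (v.pos (hk _)), mul_one]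
  exact hmax i

theorem scl_nrm (hk : ∀ a, x (k a).1 ≠ 0) : scl b (fun a ↦ x (k a).1) (nrm b x k) = x := by
  funext i
  unfold nrm scl
  rw [← mul_assoc, mul_inv_cancel₀ (hk _), one_mul]

theorem eval_eq_segv_mul [Fintype α] {N : α → ℕ} {p : MvPolynomial σ K} (hp : IsMultiHom b N p)
    (hk : ∀ a, x (k a).1 ≠ 0) : eval x p = segv b N x k * eval (nrm b x k) p := by
  conv_lhs => rw [← scl_nrm b x k hk]
  rw [hp]
  rfl

end normalise

theorem segv_le [Fintype α] (b : σ → α) (N : α → ℕ) (x : σ → K) (k : Ch b)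
    (v : AbsoluteValue K ℝ) (hmax : ∀ i, v (x i) ≤ v (x (k (b i)).1)) (κ : Ch b) :
    v (segv b N x κ) ≤ v (segv b N x k) := by
  unfold segv
  rw [map_prod, map_prod]
  refine Finset.prod_le_prod (fun a _ ↦ v.nonneg _) fun a _ ↦ ?_
  rw [map_pow, map_pow]
  have := hmax (κ a).1
  rw [(κ a).2] at this
  exact pow_le_pow_left₀ (v.nonneg _) this _

theorem segv_ne_zero [Fintype α] (b : σ → α) (N : α → ℕ) (x : σ → K) (k : Ch b)
    (hk : ∀ a, x (k a).1 ≠ 0) : segv b N x k ≠ 0 :=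
  Finset.prod_ne_zero_iff.mpr fun a _ ↦ pow_ne_zero _ (hk a)

theorem mulHeight_segv [AdmissibleAbsValues K] [Finite σ] [Fintype α] (b : σ → α) (N : α → ℕ)
    (x : σ → K) (hx : ∀ a, blk b x a ≠ 0) :
    mulHeight (segv b N x) = ∏ a, mulHeight (blk b x a) ^ N a := by
  have h1 : ∀ a, (blk b x a) ^ N a ≠ 0 := by
    intro a
    obtain ⟨i, hi⟩ := Function.ne_iff.mp (hx a)
    exact Function.ne_iff.mpr ⟨i, pow_ne_zero _ hi⟩
  have h2 := mulHeight_fun_prod_eq (x := fun a ↦ (blk b x a) ^ N a) h1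
  simp only [mulHeight_pow] at h2
  rw [← h2]
  rfl

theorem le_prod_of_one_le {ι : Type*} [Fintype ι] (f : ι → ℝ) (hf : ∀ i, 1 ≤ f i) (j : ι) :
    f j ≤ ∏ i, f i := by
  classical
  rw [← Finset.mul_prod_erase _ _ (Finset.mem_univ j)]
  have h1 : (1 : ℝ) ≤ ∏ x ∈ Finset.univ.erase j, f x := by
    induction Finset.univ.erase j using Finset.induction_on with
    | empty => simp
    | insert a s ha ih =>
      rw [Finset.prod_insert ha]
      exact one_le_mul_of_one_le_of_one_le (hf _) ih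
  calc f j = f j * 1 := (mul_one _).symm
    _ ≤ _ := by
      have := zero_le_one.trans (hf j)
      gcongr

section main

variable [AdmissibleAbsValues K]

theorem hfms_max_one (c : K) :
    (fun v : nonarchAbsVal (K := K) ↦ max (v.val c) 1).HasFiniteMulSupport := by
  rcases eq_or_ne c 0 with rfl | hc
  · simp [HasFiniteMulSupport]
  · exact (hasFiniteMulSupport hc).max hasFiniteMulSupport_one

theorem hfms_cNon (q : MvPolynomial σ K) :
    (fun v : nonarchAbsVal (K := K) ↦ cNon v.val q).HasFiniteMulSupport := by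
  unfold cNon
  exact HasFiniteMulSupport.prod (fun m ↦ hfms_max_one (coeff m q)) _

theorem log_le_aux {A B G : ℝ} (hA : 0 < A) (hB : 0 < B) (h : A ≤ G * B) :
    Real.log A ≤ Real.log (max G 1) + Real.log B := by
  have hG : 0 < max G 1 := lt_max_of_lt_right one_pos
  rw [← Real.log_mul hG.ne' hB.ne']
  exact Real.log_le_log hA (h.trans (by gcongr; exact le_max_left _ _))

theorem log_prod_mulHeight [Finite σ] [Fintype α] (b : σ → α) (N : α → ℕ) (x : σ → K) :
    Real.log (∏ a, mulHeight (blk b x a) ^ N a) = ∑ a, N a * logHeight (blk b x a) := by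
  rw [Real.log_prod (fun a _ ↦ pow_ne_zero _ (mulHeight_ne_zero _))]
  refine Finset.sum_congr rfl fun a _ ↦ ?_
  rw [Real.log_pow, logHeight_eq_log_mulHeight]

variable [Finite σ] [Fintype α] {ι' : Type*} [Fintype ι']

/-- (HM), upper bound: a multihomogeneous polynomial map of multidegree `N`. -/
theorem hm_le (b : σ → α) (N : α → ℕ) (p : ι' → MvPolynomial σ K)
    (hp : ∀ j, IsMultiHom b N (p j)) :
    ∃ C : ℝ, ∀ x : σ → K, (∀ a, blk b x a ≠ 0) →
      logHeight (fun j ↦ eval x (p j)) ≤ ∑ a, N a * logHeight (blk b x a) + C := by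
  classical
  set cA : AbsoluteValue K ℝ → ℝ := fun v ↦ ∑ j, cArch v (p j) with hcA
  set cN : AbsoluteValue K ℝ → ℝ := fun v ↦ ∏ j, cNon v (p j) with hcN
  have hcA0 : ∀ v, 0 ≤ cA v := fun v ↦ Finset.sum_nonneg fun j _ ↦ cArch_nonneg _ _
  have hcN0 : ∀ v, 0 ≤ cN v := fun v ↦
    Finset.prod_nonneg fun j _ ↦ zero_le_one.trans (one_le_cNon _ _)
  have hfin : (fun v : nonarchAbsVal (K := K) ↦ cN v.val).HasFiniteMulSupport :=
    HasFiniteMulSupport.prod (fun j ↦ hfms_cNon (p j)) _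
  refine ⟨Real.log (max (gconst cA cN) 1), fun x hx ↦ ?_⟩
  have hC0 : 0 ≤ Real.log (max (gconst cA cN) 1) := Real.log_nonneg (le_max_right _ _)
  rcases eq_or_ne (fun j ↦ eval x (p j)) 0 with hy | hy
  · rw [hy, logHeight_zero]
    exact add_nonneg (Finset.sum_nonneg fun a _ ↦
      mul_nonneg (Nat.cast_nonneg _) (logHeight_nonneg _)) hC0
  have hw : segv b N x ≠ 0 := by
    obtain ⟨k, hk, -⟩ := exists_chart b (AbsoluteValue.trivial) x hx
    exact Function.ne_iff.mpr ⟨k, segv_ne_zero b N x k hk⟩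
  have key := mulHeight_le_of_local cA cN hcA0 hcN0 hfin hy hw ?_ ?_
  · rw [mulHeight_segv b N x hx] at key
    have := log_le_aux (mulHeight_pos _)
      (Finset.prod_pos fun a _ ↦ pow_pos (mulHeight_pos _) _) key
    rw [log_prod_mulHeight] at this
    rw [logHeight_eq_log_mulHeight]
    linarith
  · intro v _
    obtain ⟨k, hk, hmax⟩ := exists_chart b v x hx
    have : Nonempty ι' := (Function.ne_iff.mp hy).nonempty
    refine ciSup_le fun j ↦ ?_
    rw [eval_eq_segv_mul b x k (hp j) hk, map_mul, mul_comm]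
    refine mul_le_mul ?_ (Finite.le_ciSup (fun κ ↦ v (segv b N x κ)) k) (v.nonneg _) (hcA0 v)
    exact (eval_le_cArch v _ _ (nrm_le_one b x k v hk hmax)).trans
      (Finset.single_le_sum (f := fun j ↦ cArch v (p j)) (fun j _ ↦ cArch_nonneg _ _)
        (Finset.mem_univ j))
  · intro v hv
    obtain ⟨k, hk, hmax⟩ := exists_chart b v x hx
    have : Nonempty ι' := (Function.ne_iff.mp hy).nonempty
    refine ciSup_le fun j ↦ ?_
    rw [eval_eq_segv_mul b x k (hp j) hk, map_mul, mul_comm]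
    refine mul_le_mul ?_ (Finite.le_ciSup (fun κ ↦ v (segv b N x κ)) k) (v.nonneg _) (hcN0 v)
    refine (eval_le_cNon (isNonarchimedean v hv) _ _ (nrm_le_one b x k v hk hmax)).trans ?_
    exact le_prod_of_one_le (fun j ↦ cNon v (p j)) (fun j ↦ one_le_cNon _ _) j

omit [AdmissibleAbsValues K] [Finite σ] in
theorem loc_ge_core (b : σ → α) (N : α → ℕ) (p : ι' → MvPolynomial σ K)
    (hp : ∀ j, IsMultiHom b N (p j)) (x : σ → K) (k : Ch b) (hk : ∀ a, x (k a).1 ≠ 0)
    (v : AbsoluteValue K ℝ) (Ck : ℝ)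
    (h1 : 1 ≤ Ck * ⨆ j, v (eval (nrm b x k) (p j))) :
    v (segv b N x k) ≤ Ck * ⨆ j, v (eval x (p j)) := by
  have e : (fun j ↦ v (eval x (p j))) = fun j ↦ v (segv b N x k) * v (eval (nrm b x k) (p j)) := by
    funext j
    rw [eval_eq_segv_mul b x k (hp j) hk, map_mul]
  have e2 : (⨆ j, v (eval x (p j))) = v (segv b N x k) * ⨆ j, v (eval (nrm b x k) (p j)) := by
    rw [Real.mul_iSup_of_nonneg (v.nonneg _)]
    exact congrArg iSup e
  rw [e2]
  calc v (segv b N x k) = v (segv b N x k) * 1 := (mul_one _).symm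
    _ ≤ v (segv b N x k) * (Ck * ⨆ j, v (eval (nrm b x k) (p j))) := by
        have := v.nonneg (segv b N x k)
        gcongr
    _ = _ := by ring

/-- (HM), lower bound on a closed multicone on which the `p j` have no common zero. -/
theorem hm_ge (b : σ → α) (N : α → ℕ) (I : Set (MvPolynomial σ K)) (p : ι' → MvPolynomial σ K)
    (hp : ∀ j, IsMultiHom b N (p j)) (hI : IsCone b I)
    (hnv : ∀ x : σ → AlgebraicClosure K, (∀ f ∈ I, aeval x f = 0) → (∀ j, aeval x (p j) = 0) →
      ∃ a, ∀ i, b i = a → x i = 0) :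
    ∃ C : ℝ, ∀ x : σ → K, (∀ a, blk b x a ≠ 0) → (∀ f ∈ I, eval x f = 0) →
      ∑ a, N a * logHeight (blk b x a) ≤ logHeight (fun j ↦ eval x (p j)) + C := by
  classical
  have cert : ∀ k : Ch b, ∃ q : ι' → MvPolynomial σ K, (1 - ∑ j, q j * p j) ∈
      Ideal.span (I ∪ Set.range fun a ↦ (X (k a).1 - 1 : MvPolynomial σ K)) := by
    intro k
    apply exists_cert
    intro x hx
    by_contra hcon
    push Not at hcon
    obtain ⟨a, ha⟩ := hnv x (fun f hf ↦ hx f (Or.inl hf)) hcon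
    have h1 := hx _ (Or.inr ⟨a, rfl⟩)
    simp only [map_sub, aeval_X, map_one] at h1
    rw [ha _ (k a).2] at h1
    simp at h1
  choose q hq using cert
  let _ : Fintype (Ch b) := Fintype.ofFinite _
  set cA : AbsoluteValue K ℝ → ℝ := fun v ↦ ∑ k, ∑ j, cArch v (q k j) with hcA
  set cN : AbsoluteValue K ℝ → ℝ := fun v ↦ ∏ k, ∏ j, cNon v (q k j) with hcN
  have hcA0 : ∀ v, 0 ≤ cA v := fun v ↦
    Finset.sum_nonneg fun k _ ↦ Finset.sum_nonneg fun j _ ↦ cArch_nonneg _ _
  have hcN1 : ∀ v k, 1 ≤ ∏ j, cNon v (q k j) := by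
    intro v k
    induction (Finset.univ : Finset ι') using Finset.induction_on with
    | empty => simp
    | insert a s ha ih =>
      rw [Finset.prod_insert ha]
      exact one_le_mul_of_one_le_of_one_le (one_le_cNon _ _) ih
  have hcN0 : ∀ v, 0 ≤ cN v := fun v ↦
    Finset.prod_nonneg fun k _ ↦ zero_le_one.trans (hcN1 v k)
  have hfin : (fun v : nonarchAbsVal (K := K) ↦ cN v.val).HasFiniteMulSupport :=
    HasFiniteMulSupport.prod (fun k ↦ HasFiniteMulSupport.prod (fun j ↦ hfms_cNon (q k j)) _) _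
  refine ⟨Real.log (max (gconst cA cN) 1), fun x hx hxI ↦ ?_⟩
  -- the normalised point lies on the chart
  have hchart : ∀ k : Ch b, (∀ a, x (k a).1 ≠ 0) →
      ∀ f ∈ (I ∪ Set.range fun a ↦ (X (k a).1 - 1 : MvPolynomial σ K)),
        eval (nrm b x k) f = 0 := by
    intro k hk f hf
    rcases hf with hf | ⟨a, rfl⟩
    · exact hI _ x (fun a ↦ inv_ne_zero (hk a)) hxI f hf
    · simp [nrm_chart b x k hk a]
  have hw : segv b N x ≠ 0 := by
    obtain ⟨k, hk, -⟩ := exists_chart b (AbsoluteValue.trivial) x hx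
    exact Function.ne_iff.mpr ⟨k, segv_ne_zero b N x k hk⟩
  have hy : (fun j ↦ eval x (p j)) ≠ 0 := by
    intro hy
    obtain ⟨k, hk, hmax⟩ := exists_chart b (AbsoluteValue.trivial) x hx
    have h1 := one_le_of_cert_arch (hq k) (AbsoluteValue.trivial) (nrm b x k)
      (nrm_le_one b x k _ hk hmax) (hchart k hk)
    have h2 := loc_ge_core b N p hp x k hk _ _ h1
    have h3 : ∀ j, eval x (p j) = 0 := fun j ↦ congrFun hy j
    simp only [h3, map_zero, Real.iSup_const_zero, mul_zero] at h2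
    exact absurd h2 (not_le.mpr ((AbsoluteValue.trivial).pos (segv_ne_zero b N x k hk)))
  have key := mulHeight_le_of_local cA cN hcA0 hcN0 hfin hw hy ?_ ?_
  · rw [mulHeight_segv b N x hx] at key
    have := log_le_aux (Finset.prod_pos fun a _ ↦ pow_pos (mulHeight_pos _) _)
      (mulHeight_pos _) key
    rw [log_prod_mulHeight] at this
    rw [logHeight_eq_log_mulHeight]
    linarith
  · intro v _
    obtain ⟨k, hk, hmax⟩ := exists_chart b v x hx
    have : Nonempty (Ch b) := ⟨k⟩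
    refine ciSup_le fun κ ↦ (segv_le b N x k v hmax κ).trans ?_
    have h1 := one_le_of_cert_arch (hq k) v (nrm b x k)
      (nrm_le_one b x k _ hk hmax) (hchart k hk)
    refine (loc_ge_core b N p hp x k hk _ _ h1).trans ?_
    refine mul_le_mul_of_nonneg_right ?_ (Real.iSup_nonneg fun j ↦ v.nonneg _)
    exact Finset.single_le_sum (f := fun k ↦ ∑ j, cArch v (q k j))
      (fun k _ ↦ Finset.sum_nonneg fun j _ ↦ cArch_nonneg _ _) (Finset.mem_univ k)
  · intro v hv
    obtain ⟨k, hk, hmax⟩ := exists_chart b v x hx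
    have : Nonempty (Ch b) := ⟨k⟩
    refine ciSup_le fun κ ↦ (segv_le b N x k v hmax κ).trans ?_
    have h1 := one_le_of_cert_non (hq k) (isNonarchimedean v hv) (nrm b x k)
      (nrm_le_one b x k _ hk hmax) (hchart k hk)
    refine (loc_ge_core b N p hp x k hk _ _ h1).trans ?_
    refine mul_le_mul_of_nonneg_right ?_ (Real.iSup_nonneg fun j ↦ v.nonneg _)
    exact le_prod_of_one_le (fun k ↦ ∏ j, cNon v (q k j)) (hcN1 v) k

end main

end S17Lib
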