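import Mathlib
import Fermat.Agent.S17.UnifHM

/-!
# S17 block UNIF: abstract two-sided height comparison by normalisation in charts
-/

set_option autoImplicit false

namespace S17Lib

open MvPolynomial Height Height.AdmissibleAbsValues Function

variable {K : Type*} [Field K] [AdmissibleAbsValues K]

/-- Abstract chart principle.  `E c` = equations of the parameter set together with the equations
of the chart `c`; on each chart the `p j` have no common zero over the algebraic closure.
Every point `x` of the domain `D` can be normalised, at each absolute value `v`, to a point `x'`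
of the unit polydisc lying on some chart `c`, with `p j x = w x c * p j x'` and `v (w x c)` maximal.
Then `logHeight (p x) = logHeight (w x) + O(1)`. -/
theorem abs_bound {σ κ Ch : Type*} [Finite σ] [Fintype κ] [Finite Ch]
    (p : κ → MvPolynomial σ K) (E : Ch → Set (MvPolynomial σ K))
    (hnv : ∀ c, ∀ x : σ → AlgebraicClosure K, (∀ f ∈ E c, aeval x f = 0) →
      ∃ j, aeval x (p j) ≠ 0)
    (D : (σ → K) → Prop) (w : (σ → K) → Ch → K)
    (hnorm : ∀ x, D x → ∀ v : AbsoluteValue K ℝ, ∃ c, ∃ x' : σ → K, (∀ i, v (x' i) ≤ 1) ∧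
      (∀ f ∈ E c, eval x' f = 0) ∧ w x c ≠ 0 ∧ (∀ c', v (w x c') ≤ v (w x c)) ∧
      ∀ j, eval x (p j) = w x c * eval x' (p j)) :
    ∃ C : ℝ, ∀ x, D x → |logHeight (fun j ↦ eval x (p j)) - logHeight (w x)| ≤ C := by
  classical
  have cert : ∀ c : Ch, ∃ q : κ → MvPolynomial σ K, (1 - ∑ j, q j * p j) ∈ Ideal.span (E c) :=
    fun c ↦ exists_cert (E c) p (hnv c)
  choose q hq using cert
  let _ : Fintype Ch := Fintype.ofFinite _
  -- constants for the upper bound
  set cA1 : AbsoluteValue K ℝ → ℝ := fun v ↦ ∑ j, cArch v (p j) with hcA1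
  set cN1 : AbsoluteValue K ℝ → ℝ := fun v ↦ ∏ j, cNon v (p j) with hcN1
  have hcA10 : ∀ v, 0 ≤ cA1 v := fun v ↦ Finset.sum_nonneg fun j _ ↦ cArch_nonneg _ _
  have hcN10 : ∀ v, 0 ≤ cN1 v := fun v ↦
    Finset.prod_nonneg fun j _ ↦ zero_le_one.trans (one_le_cNon _ _)
  have hfin1 : (fun v : nonarchAbsVal (K := K) ↦ cN1 v.val).HasFiniteMulSupport :=
    HasFiniteMulSupport.prod (fun j ↦ hfms_cNon (p j)) _
  -- constants for the lower bound
  set cA2 : AbsoluteValue K ℝ → ℝ := fun v ↦ ∑ k, ∑ j, cArch v (q k j) with hcA2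
  set cN2 : AbsoluteValue K ℝ → ℝ := fun v ↦ ∏ k, ∏ j, cNon v (q k j) with hcN2
  have hcA20 : ∀ v, 0 ≤ cA2 v := fun v ↦
    Finset.sum_nonneg fun k _ ↦ Finset.sum_nonneg fun j _ ↦ cArch_nonneg _ _
  have hcN21 : ∀ v k, 1 ≤ ∏ j, cNon v (q k j) := by
    intro v k
    induction (Finset.univ : Finset κ) using Finset.induction_on with
    | empty => simp
    | insert a s ha ih =>
      rw [Finset.prod_insert ha]
      exact one_le_mul_of_one_le_of_one_le (one_le_cNon _ _) ih
  have hcN20 : ∀ v, 0 ≤ cN2 v := fun v ↦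
    Finset.prod_nonneg fun k _ ↦ zero_le_one.trans (hcN21 v k)
  have hfin2 : (fun v : nonarchAbsVal (K := K) ↦ cN2 v.val).HasFiniteMulSupport :=
    HasFiniteMulSupport.prod (fun k ↦ HasFiniteMulSupport.prod (fun j ↦ hfms_cNon (q k j)) _) _
  refine ⟨max (Real.log (max (gconst cA1 cN1) 1)) (Real.log (max (gconst cA2 cN2) 1)),
    fun x hx ↦ ?_⟩
  -- core local inequality for the lower bound
  have core : ∀ (v : AbsoluteValue K ℝ) (c : Ch) (x' : σ → K) (Ck : ℝ),
      (∀ j, eval x (p j) = w x c * eval x' (p j)) → 1 ≤ Ck * ⨆ j, v (eval x' (p j)) →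
      v (w x c) ≤ Ck * ⨆ j, v (eval x (p j)) := by
    intro v c x' Ck he h1
    have e : (fun j ↦ v (eval x (p j))) = fun j ↦ v (w x c) * v (eval x' (p j)) := by
      funext j
      rw [he j, map_mul]
    have e2 : (⨆ j, v (eval x (p j))) = v (w x c) * ⨆ j, v (eval x' (p j)) := by
      rw [Real.mul_iSup_of_nonneg (v.nonneg _)]
      exact congrArg iSup e
    rw [e2]
    calc v (w x c) = v (w x c) * 1 := (mul_one _).symm
      _ ≤ v (w x c) * (Ck * ⨆ j, v (eval x' (p j))) := by
          have := v.nonneg (w x c)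
          gcongr
      _ = _ := by ring
  have hw : w x ≠ 0 := by
    obtain ⟨c, x', -, -, hc, -, -⟩ := hnorm x hx AbsoluteValue.trivial
    exact Function.ne_iff.mpr ⟨c, hc⟩
  have hy : (fun j ↦ eval x (p j)) ≠ 0 := by
    intro hy
    obtain ⟨c, x', h1, h2, hc, -, he⟩ := hnorm x hx AbsoluteValue.trivial
    have h3 := core _ c x' _ he (one_le_of_cert_arch (hq c) AbsoluteValue.trivial x' h1 h2)
    have h4 : ∀ j, eval x (p j) = 0 := fun j ↦ congrFun hy j
    simp only [h4, map_zero, Real.iSup_const_zero, mul_zero] at h3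
    exact absurd h3 (not_le.mpr ((AbsoluteValue.trivial).pos hc))
  have up := mulHeight_le_of_local cA1 cN1 hcA10 hcN10 hfin1 hy hw ?_ ?_
  have lo := mulHeight_le_of_local cA2 cN2 hcA20 hcN20 hfin2 hw hy ?_ ?_
  · have h1 := log_le_aux (mulHeight_pos _) (mulHeight_pos _) up
    have h2 := log_le_aux (mulHeight_pos _) (mulHeight_pos _) lo
    rw [logHeight_eq_log_mulHeight, logHeight_eq_log_mulHeight, abs_le]
    constructor
    · have := le_max_right (Real.log (max (gconst cA1 cN1) 1)) (Real.log (max (gconst cA2 cN2) 1))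
      linarith
    · have := le_max_left (Real.log (max (gconst cA1 cN1) 1)) (Real.log (max (gconst cA2 cN2) 1))
      linarith
  · intro v _
    obtain ⟨c, x', h1, h2, hc, hmax, he⟩ := hnorm x hx v
    have : Nonempty Ch := ⟨c⟩
    refine ciSup_le fun c' ↦ (hmax c').trans ?_
    refine (core v c x' _ he (one_le_of_cert_arch (hq c) v x' h1 h2)).trans ?_
    refine mul_le_mul_of_nonneg_right ?_ (Real.iSup_nonneg fun j ↦ v.nonneg _)
    exact Finset.single_le_sum (f := fun k ↦ ∑ j, cArch v (q k j))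
      (fun k _ ↦ Finset.sum_nonneg fun j _ ↦ cArch_nonneg _ _) (Finset.mem_univ c)
  · intro v hv
    obtain ⟨c, x', h1, h2, hc, hmax, he⟩ := hnorm x hx v
    have : Nonempty Ch := ⟨c⟩
    refine ciSup_le fun c' ↦ (hmax c').trans ?_
    refine (core v c x' _ he
      (one_le_of_cert_non (hq c) (isNonarchimedean v hv) x' h1 h2)).trans ?_
    refine mul_le_mul_of_nonneg_right ?_ (Real.iSup_nonneg fun j ↦ v.nonneg _)
    exact le_prod_of_one_le (fun k ↦ ∏ j, cNon v (q k j)) (hcN21 v) c
  · intro v _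
    obtain ⟨c, x', h1, h2, hc, hmax, he⟩ := hnorm x hx v
    have : Nonempty κ := (Function.ne_iff.mp hy).nonempty
    refine ciSup_le fun j ↦ ?_
    rw [he j, map_mul, mul_comm]
    refine mul_le_mul ?_ (Finite.le_ciSup (fun c' ↦ v (w x c')) c) (v.nonneg _) (hcA10 v)
    exact (eval_le_cArch v _ _ h1).trans
      (Finset.single_le_sum (f := fun j ↦ cArch v (p j)) (fun j _ ↦ cArch_nonneg _ _)
        (Finset.mem_univ j))
  · intro v hv
    obtain ⟨c, x', h1, h2, hc, hmax, he⟩ := hnorm x hx v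
    have : Nonempty κ := (Function.ne_iff.mp hy).nonempty
    refine ciSup_le fun j ↦ ?_
    rw [he j, map_mul, mul_comm]
    refine mul_le_mul ?_ (Finite.le_ciSup (fun c' ↦ v (w x c')) c) (v.nonneg _) (hcN10 v)
    refine (eval_le_cNon (isNonarchimedean v hv) _ _ h1).trans ?_
    exact le_prod_of_one_le (fun j ↦ cNon v (p j)) (fun j ↦ one_le_cNon _ _) j

end S17Lib
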