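import Mathlib

/-!
# S17, block FD (approximate version): finite differences (curve-free)

Same as `FD.lean`, but (shift) is only required up to `O(1)` and (zero) is not needed at all.
-/

set_option autoImplicit false

namespace Fermat.Agent.S17Lib
namespace FDa

section core

variable {Dv A : Type*} [AddCommMonoid Dv] [AddCommGroup A]

/-- second difference in the direction `(ν, A)` -/
def DD (G : ℕ → Dv → ℝ) (κ ν : ℕ) (E A : Dv) : ℝ :=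
  G (κ + 2 * ν) (E + 2 • A) + G κ E - 2 * G (κ + ν) (E + A)

/-- first difference in `κ` -/
def xi (G : ℕ → Dv → ℝ) (κ : ℕ) (E : Dv) : ℝ := G (κ + 1) E - G κ E

/-- extrapolation to `k = 0` -/
def th (G : ℕ → Dv → ℝ) (g κ : ℕ) (E : Dv) : ℝ := G κ E - ((κ : ℝ) + 1 - g) * xi G κ E

variable (deg : Dv →+ ℕ) (cl : Dv →+ A) (o : Dv) (g c c1 : ℕ) (G : ℕ → Dv → ℝ)

/-- the hypotheses in `G`-form -/
structure Hyp : Prop where
  g1 : ∀ κ n : ℕ, c ≤ κ → ∃ C : ℝ, ∀ E, deg E = n → |G κ (E + o) - G κ E| ≤ C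
  g3 : ∀ n K : ℕ, ∃ C : ℝ, ∀ E E', deg E = n → deg E' = n → cl E = cl E' →
    ∃ δ : ℝ, ∀ κ : ℕ, c ≤ κ → κ ≤ K → |G κ E - G κ E' - ((κ : ℝ) + 1 - g) * δ| ≤ C
  g4 : ∀ κ ν n1 f a : ℕ, c ≤ κ → c1 ≤ ν → ∃ C : ℝ, ∀ E1 F A, deg E1 = n1 → deg F = f →
    deg A = a → |DD G (κ + f) ν E1 A - DD G κ ν (E1 + F) A| ≤ C
  do1 : deg o = 1
  co : cl o = 0

variable {deg cl o g c c1 G}

theorem L1 (h : Hyp deg cl o g c c1 G) (κ ν n : ℕ) (hκ : c ≤ κ) (hν : c1 ≤ ν) :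
    ∃ C : ℝ, ∀ E, deg E = n → |G (κ + 2 * ν) E + G κ E - 2 * G (κ + ν) E| ≤ C := by
  obtain ⟨C, hC⟩ := h.g4 κ ν 0 n 1 hκ hν
  obtain ⟨C1, h1⟩ := h.g1 (κ + 2 * ν) n (by omega)
  obtain ⟨C2, h2⟩ := h.g1 (κ + 2 * ν) (n + 1) (by omega)
  obtain ⟨C3, h3⟩ := h.g1 (κ + ν) n (by omega)
  refine ⟨C + |DD G (κ + n) ν 0 o| + C1 + C2 + 2 * C3, fun E hE => ?_⟩
  have a0 := hC 0 E o (map_zero deg) hE h.do1
  have a1 := h1 E hE
  have a2 := h2 (E + o) (by rw [map_add, hE, h.do1])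
  have a3 := h3 E hE
  have a4 := le_refl |DD G (κ + n) ν 0 o|
  have e2 : DD G κ ν (0 + E) o
      = G (κ + 2 * ν) (E + o + o) + G κ E - 2 * G (κ + ν) (E + o) := by
    unfold DD
    rw [two_nsmul, ← add_assoc, zero_add]
  rw [e2] at a0
  rw [abs_le] at a0 a1 a2 a3 a4 ⊢
  constructor <;> linarith [a0.1, a0.2, a1.1, a1.2, a2.1, a2.2, a3.1, a3.2, a4.1, a4.2]

theorem L2 (h : Hyp deg cl o g c c1 G) (κ n : ℕ) (hκ : c + c1 + 1 ≤ κ) :
    ∃ C : ℝ, ∀ E, deg E = n → |G (κ + 2) E - 2 * G (κ + 1) E + G κ E| ≤ C := by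
  obtain ⟨t, rfl⟩ := Nat.exists_eq_add_of_le hκ
  obtain ⟨C1, h1⟩ := L1 h (c + t + 2) (c1 + 1) n (by omega) (by omega)
  obtain ⟨C2, h2⟩ := L1 h (c + t) (c1 + 1) n (by omega) (by omega)
  obtain ⟨C3, h3⟩ := L1 h (c + t) (c1 + 2) n (by omega) (by omega)
  obtain ⟨C4, h4⟩ := L1 h (c + t + 2) c1 n (by omega) (by omega)
  refine ⟨C1 + C2 + C3 + C4, fun E hE => ?_⟩
  have a1 := h1 E hE
  have a2 := h2 E hE
  have a3 := h3 E hE
  have a4 := h4 E hE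
  rw [show c + t + 2 + 2 * (c1 + 1) = c + t + 2 * c1 + 4 by ring,
    show c + t + 2 + (c1 + 1) = c + c1 + 1 + t + 2 by ring] at a1
  rw [show c + t + 2 * (c1 + 1) = c + t + 2 * c1 + 2 by ring,
    show c + t + (c1 + 1) = c + c1 + 1 + t by ring] at a2
  rw [show c + t + 2 * (c1 + 2) = c + t + 2 * c1 + 4 by ring,
    show c + t + (c1 + 2) = c + c1 + 1 + t + 1 by ring] at a3
  rw [show c + t + 2 + 2 * c1 = c + t + 2 * c1 + 2 by ring,
    show c + t + 2 + c1 = c + c1 + 1 + t + 1 by ring] at a4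
  rw [abs_le] at a1 a2 a3 a4 ⊢
  constructor <;> linarith [a1.1, a1.2, a2.1, a2.2, a3.1, a3.2, a4.1, a4.2]

theorem L3 (h : Hyp deg cl o g c c1 G) (κ n : ℕ) (hκ : c + c1 + 1 ≤ κ) (j : ℕ) :
    ∃ C : ℝ, ∀ E, deg E = n → |xi G (κ + j) E - xi G κ E| ≤ C := by
  induction j with
  | zero => exact ⟨0, fun E _ => by simp⟩
  | succ j ih =>
    obtain ⟨C, hC⟩ := ih
    obtain ⟨C', hC'⟩ := L2 h (κ + j) n (by omega)
    refine ⟨C + C', fun E hE => ?_⟩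
    have a1 := hC E hE
    have a2 := hC' E hE
    unfold xi at a1 ⊢
    rw [show κ + (j + 1) + 1 = κ + j + 2 by ring, show κ + (j + 1) = κ + j + 1 by ring]
    rw [abs_le] at a1 a2 ⊢
    constructor <;> linarith [a1.1, a1.2, a2.1, a2.2]

theorem L4 (h : Hyp deg cl o g c c1 G) (κ n : ℕ) (hκ : c + c1 + 1 ≤ κ) (j : ℕ) :
    ∃ C : ℝ, ∀ E, deg E = n → |G (κ + j) E - G κ E - (j : ℝ) * xi G κ E| ≤ C := by
  induction j with
  | zero => exact ⟨0, fun E _ => by simp⟩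
  | succ j ih =>
    obtain ⟨C, hC⟩ := ih
    obtain ⟨C', hC'⟩ := L3 h κ n hκ j
    refine ⟨C + C', fun E hE => ?_⟩
    have a1 := hC E hE
    have a2 := hC' E hE
    unfold xi at a1 a2 ⊢
    rw [show κ + (j + 1) = κ + j + 1 by ring]
    push_cast
    rw [abs_le] at a1 a2 ⊢
    constructor <;> linarith [a1.1, a1.2, a2.1, a2.2]

theorem th_add_o (h : Hyp deg cl o g c c1 G) (κ n : ℕ) (hκ : c ≤ κ) :
    ∃ C : ℝ, ∀ E, deg E = n → |th G g κ (E + o) - th G g κ E| ≤ C := by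
  obtain ⟨C0, h0⟩ := h.g1 κ n hκ
  obtain ⟨C1, h1⟩ := h.g1 (κ + 1) n (by omega)
  set k : ℝ := (κ : ℝ) + 1 - g with hk
  refine ⟨|k + 1| * C0 + |k| * C1, fun E hE => ?_⟩
  have a0 := h0 E hE
  have a1 := h1 E hE
  have e : th G g κ (E + o) - th G g κ E
      = (k + 1) * (G κ (E + o) - G κ E) - k * (G (κ + 1) (E + o) - G (κ + 1) E) := by
    unfold th xi
    rw [← hk]
    ring
  rw [e]
  calc |(k + 1) * (G κ (E + o) - G κ E) - k * (G (κ + 1) (E + o) - G (κ + 1) E)|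
      ≤ |(k + 1) * (G κ (E + o) - G κ E)| + |k * (G (κ + 1) (E + o) - G (κ + 1) E)| :=
        abs_sub _ _
    _ = |k + 1| * |G κ (E + o) - G κ E| + |k| * |G (κ + 1) (E + o) - G (κ + 1) E| := by
        rw [abs_mul, abs_mul]
    _ ≤ |k + 1| * C0 + |k| * C1 := by gcongr

theorem th_add_nsmul_o (h : Hyp deg cl o g c c1 G) (κ n : ℕ) (hκ : c ≤ κ) (j : ℕ) :
    ∃ C : ℝ, ∀ E, deg E = n → |th G g κ (E + j • o) - th G g κ E| ≤ C := by
  induction j with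
  | zero => exact ⟨0, fun E _ => by simp⟩
  | succ j ih =>
    obtain ⟨C, hC⟩ := ih
    obtain ⟨C', hC'⟩ := th_add_o h κ (n + j) hκ
    refine ⟨C + C', fun E hE => ?_⟩
    have a1 := hC E hE
    have a2 := hC' (E + j • o) (by rw [map_add, map_nsmul, hE, h.do1]; simp)
    rw [succ_nsmul, ← add_assoc]
    rw [abs_le] at a1 a2 ⊢
    constructor <;> linarith [a1.1, a1.2, a2.1, a2.2]

/-- class invariance of `th` -/
theorem L6 (h : Hyp deg cl o g c c1 G) (κ n : ℕ) (hκ : c ≤ κ) :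
    ∃ C : ℝ, ∀ E E', deg E = n → deg E' = n → cl E = cl E' →
      |th G g κ E - th G g κ E'| ≤ C := by
  obtain ⟨C, hC⟩ := h.g3 n (κ + 1)
  refine ⟨(|(κ : ℝ) + 1 - g + 1| + |(κ : ℝ) + 1 - g|) * C, fun E E' hE hE' hcl => ?_⟩
  obtain ⟨δ, hδ⟩ := hC E E' hE hE' hcl
  have a0 := hδ κ hκ (by omega)
  have a1 := hδ (κ + 1) (by omega) le_rfl
  push_cast at a1
  set k : ℝ := (κ : ℝ) + 1 - g with hk
  have e : th G g κ E - th G g κ E' =
      (k + 1) * (G κ E - G κ E' - k * δ) - k * (G (κ + 1) E - G (κ + 1) E' - (k + 1) * δ) := by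
    unfold th xi
    rw [← hk]
    ring
  have a1' : |G (κ + 1) E - G (κ + 1) E' - (k + 1) * δ| ≤ C := by
    have : (κ : ℝ) + 1 + 1 - g = k + 1 := by rw [hk]; ring
    rwa [this] at a1
  rw [e]
  calc |(k + 1) * (G κ E - G κ E' - k * δ) - k * (G (κ + 1) E - G (κ + 1) E' - (k + 1) * δ)|
      ≤ |(k + 1) * (G κ E - G κ E' - k * δ)| + |k * (G (κ + 1) E - G (κ + 1) E' - (k + 1) * δ)| :=
        abs_sub _ _
    _ = |k + 1| * |G κ E - G κ E' - k * δ| + |k| * |G (κ + 1) E - G (κ + 1) E' - (k + 1) * δ| := by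
        rw [abs_mul, abs_mul]
    _ ≤ |k + 1| * C + |k| * C := by
        gcongr
    _ = (|k + 1| + |k|) * C := by ring

theorem DD_add_o (h : Hyp deg cl o g c c1 G) (κ ν n1 a : ℕ) (hκ : c ≤ κ) :
    ∃ C : ℝ, ∀ E A, deg E = n1 → deg A = a → |DD G κ ν (E + o) A - DD G κ ν E A| ≤ C := by
  obtain ⟨C1, h1⟩ := h.g1 (κ + 2 * ν) (n1 + 2 * a) (by omega)
  obtain ⟨C2, h2⟩ := h.g1 κ n1 hκ
  obtain ⟨C3, h3⟩ := h.g1 (κ + ν) (n1 + a) (by omega)
  refine ⟨C1 + C2 + 2 * C3, fun E A hE hA => ?_⟩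
  have a1 := h1 (E + 2 • A) (by rw [map_add, map_nsmul, hE, hA]; simp)
  have a2 := h2 E hE
  have a3 := h3 (E + A) (by rw [map_add, hE, hA])
  unfold DD
  rw [add_right_comm E o (2 • A), add_right_comm E o A]
  rw [abs_le] at a1 a2 a3 ⊢
  constructor <;> linarith [a1.1, a1.2, a2.1, a2.2, a3.1, a3.2]

theorem L7 (h : Hyp deg cl o g c c1 G) (κ ν n1 a : ℕ) (hκ : c ≤ κ) (hν : c1 ≤ ν) :
    ∃ C : ℝ, ∀ E1 A, deg E1 = n1 → deg A = a → |DD G (κ + 1) ν E1 A - DD G κ ν E1 A| ≤ C := by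
  obtain ⟨C, hC⟩ := h.g4 κ ν n1 1 a hκ hν
  obtain ⟨C', hC'⟩ := DD_add_o h κ ν n1 a hκ
  refine ⟨C + C', fun E1 A h1 hA => ?_⟩
  have a1 := hC E1 o A h1 h.do1 hA
  have a2 := hC' E1 A h1 hA
  rw [abs_le] at a1 a2 ⊢
  constructor <;> linarith [a1.1, a1.2, a2.1, a2.2]

/-- second differences of `xi` are bounded -/
theorem L8 (h : Hyp deg cl o g c c1 G) (κ n1 a : ℕ) (hκ : c + c1 + 1 ≤ κ) :
    ∃ C : ℝ, ∀ E1 A, deg E1 = n1 → deg A = a →
      |xi G κ (E1 + 2 • A) + xi G κ E1 - 2 * xi G κ (E1 + A)| ≤ C := by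
  obtain ⟨C, hC⟩ := L7 h κ c1 n1 a (by omega) le_rfl
  obtain ⟨C2, hC2⟩ := L3 h κ (n1 + 2 * a) hκ (2 * c1)
  obtain ⟨C1, hC1⟩ := L3 h κ (n1 + a) hκ c1
  refine ⟨C + C2 + 2 * C1, fun E1 A h1 hA => ?_⟩
  have a0 := hC E1 A h1 hA
  have a2 := hC2 (E1 + 2 • A) (by rw [map_add, map_nsmul, h1, hA]; simp)
  have a1 := hC1 (E1 + A) (by rw [map_add, h1, hA])
  unfold DD at a0
  unfold xi at a1 a2 ⊢
  rw [show κ + 1 + 2 * c1 = κ + 2 * c1 + 1 by ring, show κ + 1 + c1 = κ + c1 + 1 by ring] at a0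
  rw [abs_le] at a0 a1 a2 ⊢
  constructor <;> linarith [a0.1, a0.2, a1.1, a1.2, a2.1, a2.2]

/-- `xi` is additive up to `O(1)` -/
theorem L9 (h : Hyp deg cl o g c c1 G) (κ nx ny : ℕ) (hκ : c + c1 + 1 ≤ κ) :
    ∃ C : ℝ, ∀ X Y, deg X = nx → deg Y = ny →
      |xi G κ (X + Y) - xi G κ X - xi G κ Y| ≤ C := by
  obtain ⟨C1, h1⟩ := L8 h κ 0 (nx + ny) hκ
  obtain ⟨C2, h2⟩ := L8 h κ (2 * ny) nx hκ
  obtain ⟨C3, h3⟩ := L8 h κ 0 ny hκ
  obtain ⟨C4, h4⟩ := L8 h κ nx ny hκ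
  refine ⟨C1 + C2 + C3 + 2 * C4 + 2 * |xi G κ 0|, fun X Y hX hY => ?_⟩
  have a1 := h1 0 (X + Y) (map_zero deg) (by rw [map_add, hX, hY])
  have a2 := h2 (2 • Y) X (by rw [map_nsmul, hY]; simp) hX
  have a3 := h3 0 Y (map_zero deg) hY
  have a4 := h4 X Y hX hY
  have a5 := le_refl |xi G κ 0|
  rw [zero_add, zero_add] at a1 a3
  rw [show 2 • Y + 2 • X = 2 • (X + Y) by rw [nsmul_add, add_comm],
    show 2 • Y + X = X + 2 • Y by rw [add_comm]] at a2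
  rw [abs_le] at a1 a2 a3 a4 a5 ⊢
  constructor <;> linarith [a1.1, a1.2, a2.1, a2.2, a3.1, a3.2, a4.1, a4.2, a5.1, a5.2]

/-- decomposition of the second difference -/
theorem L10 (h : Hyp deg cl o g c c1 G) (κ n1 a : ℕ) (hκ : c + c1 + 1 ≤ κ) :
    ∃ C : ℝ, ∀ E1 A, deg E1 = n1 → deg A = a →
      |DD G κ c1 E1 A - (th G g κ (E1 + 2 • A) + th G g κ E1 - 2 * th G g κ (E1 + A))
        - 2 * (c1 : ℝ) * xi G κ A| ≤ C := by
  obtain ⟨C1, h1⟩ := L4 h κ (n1 + 2 * a) hκ (2 * c1)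
  obtain ⟨C2, h2⟩ := L4 h κ (n1 + a) hκ c1
  obtain ⟨C3, h3⟩ := L9 h κ n1 a hκ
  obtain ⟨C4, h4⟩ := L9 h κ (n1 + a) a hκ
  set k : ℝ := (κ : ℝ) + 1 - g with hk
  refine ⟨C1 + 2 * C2 + |k + 2 * c1| * (C3 + C4) + |2 * (k + c1)| * C3, fun E1 A hE hA => ?_⟩
  have a1 := h1 (E1 + 2 • A) (by rw [map_add, map_nsmul, hE, hA]; simp)
  have a2 := h2 (E1 + A) (by rw [map_add, hE, hA])
  have a3 := h3 E1 A hE hA
  have a4 := h4 (E1 + A) A (by rw [map_add, hE, hA]) hA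
  rw [show E1 + A + A = E1 + 2 • A by rw [two_nsmul, add_assoc]] at a4
  push_cast at a1
  set e1 := G (κ + 2 * c1) (E1 + 2 • A) - G κ (E1 + 2 • A) - 2 * (c1 : ℝ) * xi G κ (E1 + 2 • A)
    with he1
  set e2 := G (κ + c1) (E1 + A) - G κ (E1 + A) - (c1 : ℝ) * xi G κ (E1 + A) with he2
  set e3 := xi G κ (E1 + A) - xi G κ E1 - xi G κ A with he3
  set e4 := xi G κ (E1 + 2 • A) - xi G κ (E1 + A) - xi G κ A with he4
  have e : DD G κ c1 E1 A - (th G g κ (E1 + 2 • A) + th G g κ E1 - 2 * th G g κ (E1 + A))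
        - 2 * (c1 : ℝ) * xi G κ A = e1 - 2 * e2 + (k + 2 * c1) * (e3 + e4) - (2 * (k + c1)) * e3 := by
    rw [he1, he2, he3, he4]
    unfold DD th
    rw [← hk]
    ring
  rw [e]
  have b1 : |(k + 2 * c1) * (e3 + e4)| ≤ |k + 2 * c1| * (C3 + C4) := by
    rw [abs_mul]
    gcongr
    exact (abs_add_le _ _).trans (add_le_add a3 a4)
  have b2 : |(2 * (k + c1)) * e3| ≤ |2 * (k + c1)| * C3 := by
    rw [abs_mul]
    gcongr
  rw [abs_le] at a1 a2 b1 b2 ⊢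
  constructor <;> linarith [a1.1, a1.2, a2.1, a2.2, b1.1, b1.2, b2.1, b2.2]

/-- independence of the base point -/
theorem L11 (h : Hyp deg cl o g c c1 G) (κ ν n1 a : ℕ) (hκ : c ≤ κ) (hν : c1 ≤ ν) :
    ∃ C : ℝ, ∀ E1 E1' A, deg E1 = n1 → deg E1' = n1 → deg A = a →
      |DD G (κ + n1) ν E1 A - DD G (κ + n1) ν E1' A| ≤ C := by
  obtain ⟨C, hC⟩ := h.g4 κ ν n1 n1 a hκ hν
  refine ⟨2 * C, fun E1 E1' A h1 h1' hA => ?_⟩
  have a1 := hC E1 E1' A h1 h1' hA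
  have a2 := hC E1' E1 A h1' h1 hA
  rw [add_comm E1' E1] at a2
  rw [abs_le] at a1 a2 ⊢
  constructor <;> linarith [a1.1, a1.2, a2.1, a2.2]

/-- the second difference of `th` does not depend on the base point -/
theorem L12 (h : Hyp deg cl o g c c1 G) (κ n1 a : ℕ) (hκ : c + c1 + 1 + n1 ≤ κ) :
    ∃ C : ℝ, ∀ E1 E1' A, deg E1 = n1 → deg E1' = n1 → deg A = a →
      |(th G g κ (E1 + 2 • A) + th G g κ E1 - 2 * th G g κ (E1 + A))
        - (th G g κ (E1' + 2 • A) + th G g κ E1' - 2 * th G g κ (E1' + A))| ≤ C := by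
  obtain ⟨t, rfl⟩ := Nat.exists_eq_add_of_le hκ
  obtain ⟨C1, h1⟩ := L10 h (c + c1 + 1 + n1 + t) n1 a (by omega)
  obtain ⟨C2, h2⟩ := L11 h (c + c1 + 1 + t) c1 n1 a (by omega) le_rfl
  refine ⟨2 * C1 + C2, fun E1 E1' A hE hE' hA => ?_⟩
  have a1 := h1 E1 A hE hA
  have a1' := h1 E1' A hE' hA
  have a2 := h2 E1 E1' A hE hE' hA
  rw [show c + c1 + 1 + t + n1 = c + c1 + 1 + n1 + t by ring] at a2
  rw [abs_le] at a1 a1' a2 ⊢
  constructor <;> linarith [a1.1, a1.2, a1'.1, a1'.2, a2.1, a2.2]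

/-- **the quasi-parallelogram law** in `G`-form -/
theorem L13 (h : Hyp deg cl o g c c1 G) (κ : ℕ) (hκ : c + c1 + 1 + g ≤ κ)
    (R : A → Dv) (hRd : ∀ x, deg (R x) = g) (hRc : ∀ x, cl (R x) = x) :
    ∃ C : ℝ, ∀ x y : A, |th G g κ (R (x + y)) + th G g κ (R (x - y)) - 2 * th G g κ (R x)
      - th G g κ (R y) - th G g κ (R (-y))| ≤ C := by
  obtain ⟨C0, h0⟩ := L12 h κ g g hκ
  obtain ⟨C3, h3⟩ := L6 h κ (3 * g) (by omega)
  obtain ⟨C2, h2⟩ := L6 h κ (2 * g) (by omega)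
  have hκc : c ≤ κ := by omega
  obtain ⟨D2, d2⟩ := th_add_nsmul_o h κ g hκc (2 * g)
  obtain ⟨D1, d1⟩ := th_add_nsmul_o h κ g hκc g
  obtain ⟨D0, d0⟩ := th_add_nsmul_o h κ 0 hκc (2 * g)
  have hdo : ∀ n : ℕ, deg (n • o) = n := fun n => by rw [map_nsmul, h.do1]; simp
  have hco : ∀ n : ℕ, cl (n • o) = 0 := fun n => by rw [map_nsmul, h.co]; simp
  refine ⟨C0 + 2 * C3 + 4 * C2 + 2 * D2 + 2 * D1 + 2 * D0 + 2 * |th G g κ 0|, fun x y => ?_⟩
  have a0 := h0 (R (x - y)) (R (-y)) (R y) (hRd _) (hRd _) (hRd _)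
  have b1 := h3 (R (x - y) + 2 • R y) (R (x + y) + (2 * g) • o)
    (by rw [map_add, map_nsmul, hRd, hRd]; simp; ring)
    (by rw [map_add, hRd, hdo]; ring)
    (by rw [map_add, map_nsmul, hRc, hRc, map_add, hRc, hco]; abel)
  have b2 := h2 (R (x - y) + R y) (R x + g • o)
    (by rw [map_add, hRd, hRd]; ring)
    (by rw [map_add, hRd, hdo]; ring)
    (by rw [map_add, hRc, hRc, map_add, hRc, hco]; abel)
  have b3 := h3 (R (-y) + 2 • R y) (R y + (2 * g) • o)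
    (by rw [map_add, map_nsmul, hRd, hRd]; simp; ring)
    (by rw [map_add, hRd, hdo]; ring)
    (by rw [map_add, map_nsmul, hRc, hRc, map_add, hRc, hco]; abel)
  have b4 := h2 (R (-y) + R y) (0 + (2 * g) • o)
    (by rw [map_add, hRd, hRd]; ring)
    (by rw [map_add, map_zero, hdo]; ring)
    (by rw [map_add, hRc, hRc, map_add, map_zero, hco]; abel)
  have f1 := d2 (R (x + y)) (hRd _)
  have f2 := d1 (R x) (hRd _)
  have f3 := d2 (R y) (hRd _)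
  have f4 := d0 0 (map_zero deg)
  have f5 := le_refl |th G g κ 0|
  rw [abs_le] at a0 b1 b2 b3 b4 f1 f2 f3 f4 f5 ⊢
  constructor <;> linarith [a0.1, a0.2, b1.1, b1.2, b2.1, b2.2, b3.1, b3.2, b4.1, b4.2,
    f1.1, f1.2, f2.1, f2.2, f3.1, f3.2, f4.1, f4.2, f5.1, f5.2]

end core

section final

variable {Dv A : Type*} [AddCommMonoid Dv] [AddCommGroup A]

/-- the second difference of the pencil cube:
`D b m E A = H_{b+m}(E + 2A) + H_{b-m}(E) - 2 H_b(E + A)` -/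
def Dcube (H : ℕ → Dv → ℝ) (b m : ℕ) (E A : Dv) : ℝ :=
  H (b + m) (E + 2 • A) + H (b - m) E - 2 * H b (E + A)

/-- the theta height of a divisor: `(k+1) H_b(E) - k H_{b+1}(E)`, `b = deg E + κ`,
`k = κ + 1 - g` -/
def hh (deg : Dv →+ ℕ) (H : ℕ → Dv → ℝ) (g κ : ℕ) (E : Dv) : ℝ :=
  ((κ : ℝ) + 1 - g + 1) * H (deg E + κ) E - ((κ : ℝ) + 1 - g) * H (deg E + κ + 1) E

variable (deg : Dv →+ ℕ) (cl : Dv →+ A) (o : Dv) (g c c1 : ℕ) (H : ℕ → Dv → ℝ)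

/-- the three inputs, in `H`-form ((shift) only up to `O(1)`) -/
structure Inputs : Prop where
  deg_o : deg o = 1
  cl_o : cl o = 0
  shift : ∀ b n : ℕ, n + c ≤ b → ∃ C : ℝ, ∀ E, deg E = n → |H (b + 1) (E + o) - H b E| ≤ C
  inv : ∀ n B : ℕ, ∃ C : ℝ, ∀ E E', deg E = n → deg E' = n → cl E = cl E' →
    ∃ δ : ℝ, ∀ b : ℕ, n + c ≤ b → b ≤ B → |H b E - H b E' - ((b : ℝ) - n + 1 - g) * δ| ≤ C
  cube : ∀ b m n1 f a : ℕ, n1 + f + m + c ≤ b → a + c1 ≤ m → ∃ C : ℝ, ∀ E1 F A,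
    deg E1 = n1 → deg F = f → deg A = a → |Dcube H b m E1 A - Dcube H b m (E1 + F) A| ≤ C

variable {deg cl o g c c1 H}

theorem hyp_of_inputs (h : Inputs deg cl o g c c1 H) :
    Hyp deg cl o g c c1 (fun κ E => H (deg E + κ) E) where
  do1 := h.deg_o
  co := h.cl_o
  g1 := fun κ n hκ => by
    obtain ⟨C, hC⟩ := h.shift (n + κ) n (by omega)
    refine ⟨C, fun E hE => ?_⟩
    show |H (deg (E + o) + κ) (E + o) - H (deg E + κ) E| ≤ C
    rw [map_add, h.deg_o, hE, show n + 1 + κ = n + κ + 1 by ring]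
    exact hC E hE
  g3 := fun n K => by
    obtain ⟨C, hC⟩ := h.inv n (n + K)
    refine ⟨C, fun E E' hE hE' hcl => ?_⟩
    obtain ⟨δ, hδ⟩ := hC E E' hE hE' hcl
    refine ⟨δ, fun κ hκ hκK => ?_⟩
    have := hδ (n + κ) (by omega) (by omega)
    show |H (deg E + κ) E - H (deg E' + κ) E' - ((κ : ℝ) + 1 - g) * δ| ≤ C
    rw [hE, hE']
    have e : (((n + κ : ℕ) : ℝ) - n + 1 - g) = (κ : ℝ) + 1 - g := by push_cast; ring
    rwa [e] at this
  g4 := fun κ ν n1 f a hκ hν => by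
    obtain ⟨C, hC⟩ := h.cube (κ + f + n1 + (a + ν)) (a + ν) n1 f a (by omega) (by omega)
    refine ⟨C, fun E1 F A h1 hF hA => ?_⟩
    have := hC E1 F A h1 hF hA
    have e1 : DD (fun κ E => H (deg E + κ) E) (κ + f) ν E1 A
        = Dcube H (κ + f + n1 + (a + ν)) (a + ν) E1 A := by
      unfold DD Dcube
      show H (deg (E1 + 2 • A) + (κ + f + 2 * ν)) (E1 + 2 • A) + H (deg E1 + (κ + f)) E1
        - 2 * H (deg (E1 + A) + (κ + f + ν)) (E1 + A) = _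
      rw [map_add, map_add, map_nsmul, h1, hA, smul_eq_mul,
        show n1 + 2 * a + (κ + f + 2 * ν) = κ + f + n1 + (a + ν) + (a + ν) by ring,
        show n1 + (κ + f) = κ + f + n1 + (a + ν) - (a + ν) by omega,
        show n1 + a + (κ + f + ν) = κ + f + n1 + (a + ν) by ring]
    have e2 : DD (fun κ E => H (deg E + κ) E) κ ν (E1 + F) A
        = Dcube H (κ + f + n1 + (a + ν)) (a + ν) (E1 + F) A := by
      unfold DD Dcube
      show H (deg (E1 + F + 2 • A) + (κ + 2 * ν)) (E1 + F + 2 • A) + H (deg (E1 + F) + κ) (E1 + F)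
        - 2 * H (deg (E1 + F + A) + (κ + ν)) (E1 + F + A) = _
      rw [map_add, map_add, map_add, map_add, map_nsmul, h1, hA, hF, smul_eq_mul,
        show n1 + f + 2 * a + (κ + 2 * ν) = κ + f + n1 + (a + ν) + (a + ν) by ring,
        show n1 + f + κ = κ + f + n1 + (a + ν) - (a + ν) by omega,
        show n1 + f + a + (κ + ν) = κ + f + n1 + (a + ν) by ring]
    rw [e1, e2]
    exact this

theorem th_eq_hh (κ : ℕ) (E : Dv) :
    th (fun κ E => H (deg E + κ) E) g κ E = hh deg H g κ E := by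
  unfold th xi hh
  show H (deg E + κ) E - ((κ : ℝ) + 1 - g) * (H (deg E + (κ + 1)) E - H (deg E + κ) E) = _
  rw [← add_assoc]
  ring

/-- **FD, main theorem**: the theta height `x ↦ hh (R x)` satisfies the quasi-parallelogram law. -/
theorem quasi_parallelogram (h : Inputs deg cl o g c c1 H) (κ : ℕ) (hκ : c + c1 + g + 1 ≤ κ)
    (R : A → Dv) (hRd : ∀ x, deg (R x) = g) (hRc : ∀ x, cl (R x) = x) :
    ∃ C : ℝ, ∀ x y : A, |hh deg H g κ (R (x + y)) + hh deg H g κ (R (x - y))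
      - 2 * hh deg H g κ (R x) - hh deg H g κ (R y) - hh deg H g κ (R (-y))| ≤ C := by
  obtain ⟨C, hC⟩ := L13 (hyp_of_inputs h) κ (by omega) R hRd hRc
  refine ⟨C, fun x y => ?_⟩
  have := hC x y
  simpa only [th_eq_hh] using this

/-- **FD, corollary**: the symmetrised theta height satisfies the approximate parallelogram law
(hypothesis `H₃` of Mathlib's `AddCommGroup.fg_of_descent'`). -/
theorem parallelogram (h : Inputs deg cl o g c c1 H) (κ : ℕ) (hκ : c + c1 + g + 1 ≤ κ)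
    (R : A → Dv) (hRd : ∀ x, deg (R x) = g) (hRc : ∀ x, cl (R x) = x) :
    ∃ C : ℝ, ∀ x y : A,
      |(hh deg H g κ (R (x + y)) + hh deg H g κ (R (-(x + y))))
        + (hh deg H g κ (R (x - y)) + hh deg H g κ (R (-(x - y))))
        - 2 * ((hh deg H g κ (R x) + hh deg H g κ (R (-x)))
          + (hh deg H g κ (R y) + hh deg H g κ (R (-y))))| ≤ C := by
  obtain ⟨C, hC⟩ := quasi_parallelogram h κ hκ R hRd hRc
  refine ⟨2 * C, fun x y => ?_⟩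
  have a1 := hC x y
  have a2 := hC (-x) (-y)
  rw [show -x + -y = -(x + y) by abel, show -x - -y = -(x - y) by abel, neg_neg] at a2
  rw [abs_le] at a1 a2 ⊢
  constructor <;> linarith [a1.1, a1.2, a2.1, a2.2]

/-- class invariance of the theta height (same degree) -/
theorem hh_class_inv (h : Inputs deg cl o g c c1 H) (κ n : ℕ) (hκ : c ≤ κ) :
    ∃ C : ℝ, ∀ E E', deg E = n → deg E' = n → cl E = cl E' →
      |hh deg H g κ E - hh deg H g κ E'| ≤ C := by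
  obtain ⟨C, hC⟩ := L6 (hyp_of_inputs h) κ n hκ
  refine ⟨C, fun E E' hE hE' hcl => ?_⟩
  have := hC E E' hE hE' hcl
  simpa only [th_eq_hh] using this

/-- invariance of the theta height under adding multiples of `o`, up to `O(1)` -/
theorem hh_add_nsmul_o (h : Inputs deg cl o g c c1 H) (κ n : ℕ) (hκ : c ≤ κ) (j : ℕ) :
    ∃ C : ℝ, ∀ E, deg E = n → |hh deg H g κ (E + j • o) - hh deg H g κ E| ≤ C := by
  obtain ⟨C, hC⟩ := th_add_nsmul_o (hyp_of_inputs h) κ n hκ j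
  refine ⟨C, fun E hE => ?_⟩
  have := hC E hE
  simpa only [th_eq_hh] using this

/-- linearity of `H b E` in `b` up to `O(1)` -/
theorem H_second_diff (h : Inputs deg cl o g c c1 H) (κ n : ℕ) (hκ : c + c1 + 1 ≤ κ) :
    ∃ C : ℝ, ∀ E, deg E = n →
      |H (n + κ + 2) E - 2 * H (n + κ + 1) E + H (n + κ) E| ≤ C := by
  obtain ⟨C, hC⟩ := L2 (hyp_of_inputs h) κ n hκ
  refine ⟨C, fun E hE => ?_⟩
  have := hC E hE
  simp only [hE] at this
  simpa only [add_assoc] using this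

/-- additivity of `ξ(E) = H_{b+1}(E) - H_b(E)` up to `O(1)` -/
theorem xi_additive (h : Inputs deg cl o g c c1 H) (κ nx ny : ℕ) (hκ : c + c1 + 1 ≤ κ) :
    ∃ C : ℝ, ∀ X Y, deg X = nx → deg Y = ny →
      |(H (nx + ny + κ + 1) (X + Y) - H (nx + ny + κ) (X + Y))
        - (H (nx + κ + 1) X - H (nx + κ) X) - (H (ny + κ + 1) Y - H (ny + κ) Y)| ≤ C := by
  obtain ⟨C, hC⟩ := L9 (hyp_of_inputs h) κ nx ny hκ
  refine ⟨C, fun X Y hX hY => ?_⟩
  have := hC X Y hX hY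
  unfold xi at this
  simp only [map_add, hX, hY] at this
  simpa only [add_assoc] using this

end final

end FDa
end Fermat.Agent.S17Lib
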