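import Fermat.Agent.S17.Cube.Defs

/-!
# S17: Northcott for Pluecker vectors over `ℚ`

* `NP_exists_primitive` : a nonzero rational vector is a multiple of a primitive integer vector
* `NP_northcott_vec`    : finitely many primitive representatives of bounded height
* `NP_span_eq`          : the row space is recovered from the Pluecker vector (Cramer)
* `northcott_plucker`   : finitely many subspaces of `ι → ℚ` of bounded Pluecker height
-/

set_option autoImplicit false

namespace Fermat.Agent.S17Lib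

open Matrix Height

theorem NP_exists_primitive {κ : Type} [Fintype κ] (x : κ → ℚ) (hx : x ≠ 0) :
    ∃ (c : ℚ) (s : κ → ℤ), c ≠ 0 ∧ Finset.univ.gcd s = 1 ∧ x = c • (((↑) : ℤ → ℚ) ∘ s) := by
  classical
  obtain ⟨j0, hj0⟩ := Function.ne_iff.mp hx
  have hne : (Finset.univ : Finset κ).Nonempty := ⟨j0, Finset.mem_univ _⟩
  obtain ⟨N, hN⟩ := IsLocalization.exist_integer_multiples_of_finite (nonZeroDivisors ℤ) x
  choose y hy using hN
  have hN0 : ((N : ℤ) : ℚ) ≠ 0 := by exact_mod_cast nonZeroDivisors.ne_zero N.2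
  have hy' : ∀ j, (y j : ℚ) = ((N : ℤ) : ℚ) * x j := by
    intro j
    simpa [Algebra.smul_def] using hy j
  obtain ⟨s, hs, hgcd⟩ := Finset.extract_gcd y hne
  set g := Finset.univ.gcd y with hg
  have hg0 : (g : ℚ) ≠ 0 := by
    intro h
    have hg' : g = 0 := by exact_mod_cast h
    have h1 := hy' j0
    rw [hs j0 (Finset.mem_univ _), hg', zero_mul, Int.cast_zero] at h1
    rcases mul_eq_zero.mp h1.symm with h2 | h2
    · exact hN0 h2
    · exact hj0 h2
  refine ⟨(g : ℚ) / ((N : ℤ) : ℚ), s, div_ne_zero hg0 hN0, hgcd, ?_⟩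
  funext j
  simp only [Pi.smul_apply, Function.comp, smul_eq_mul]
  have h1 := hy' j
  rw [hs j (Finset.mem_univ _)] at h1
  push_cast at h1
  field_simp
  linarith

/-- Northcott for `ℙ(ℚ)`: finitely many primitive integer representatives. -/
theorem NP_northcott_vec {κ : Type} [Fintype κ] (T : ℝ) :
    ∃ S : Set (κ → ℤ), S.Finite ∧ ∀ x : κ → ℚ, x ≠ 0 → logHeight x ≤ T →
      ∃ (c : ℚ) (s : κ → ℤ), s ∈ S ∧ c ≠ 0 ∧ x = c • (((↑) : ℤ → ℚ) ∘ s) := by
  classical
  refine ⟨Set.Icc (fun _ => -⌊Real.exp T⌋) (fun _ => ⌊Real.exp T⌋), Set.finite_Icc _ _, ?_⟩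
  intro x hx hT
  obtain ⟨c, s, hc, hgcd, hxs⟩ := NP_exists_primitive x hx
  refine ⟨c, s, ?_, hc, hxs⟩
  obtain ⟨j0, -⟩ := Function.ne_iff.mp hx
  have : Nonempty κ := ⟨j0⟩
  have h1 : mulHeight x = ((⨆ i, |s i| : ℤ) : ℝ) := by
    rw [hxs, mulHeight_smul_eq_mulHeight _ hc, Rat.mulHeight_eq_max_abs_of_gcd_eq_one hgcd]
  have h2 : mulHeight x ≤ Real.exp T := by
    rw [← Real.exp_log (mulHeight_pos x)]
    exact Real.exp_le_exp.mpr hT
  have h3 : (⨆ i, |s i|) ≤ ⌊Real.exp T⌋ := by
    rw [Int.le_floor, ← h1]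
    exact h2
  have h4 : ∀ i, |s i| ≤ ⌊Real.exp T⌋ := fun i =>
    (Finite.le_ciSup (fun i => |s i|) i).trans h3
  constructor
  · intro i
    exact (abs_le.mp (h4 i)).1
  · intro i
    exact (abs_le.mp (h4 i)).2

theorem NP_span_mul_le {F : Type*} [Field F] {k : ℕ} {ι : Type*} (U : Matrix (Fin k) (Fin k) F)
    (M : Matrix (Fin k) ι F) :
    Submodule.span F (Set.range (U * M).row) ≤ Submodule.span F (Set.range M.row) := by
  rw [Submodule.span_le]
  rintro _ ⟨i, rfl⟩
  have : (U * M).row i = ∑ l, U i l • M.row l := by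
    funext j
    simp [Matrix.row, Matrix.mul_apply, Finset.sum_apply]
  rw [this]
  exact Submodule.sum_mem _ fun l _ =>
    Submodule.smul_mem _ _ (Submodule.subset_span ⟨l, rfl⟩)

theorem NP_span_mul {F : Type*} [Field F] {k : ℕ} {ι : Type*} (U : Matrix (Fin k) (Fin k) F)
    (hU : U.det ≠ 0) (M : Matrix (Fin k) ι F) :
    Submodule.span F (Set.range (U * M).row) = Submodule.span F (Set.range M.row) := by
  apply le_antisymm (NP_span_mul_le U M)
  have h := NP_span_mul_le U⁻¹ (U * M)
  rwa [← Matrix.mul_assoc, Matrix.nonsing_inv_mul _ (isUnit_iff_ne_zero.mpr hU),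
    Matrix.one_mul] at h

/-- the echelon matrix attached to a Pluecker vector and a pivot `I0`. -/
def NP_ech {F : Type*} [Field F] {k : ℕ} {ι : Type*} [DecidableEq ι] (P : (Fin k → ι) → F)
    (I0 : Fin k → ι) : Matrix (Fin k) ι F :=
  Matrix.of fun s j => P (Function.update I0 s j) / P I0

theorem NP_mul_ech {F : Type*} [Field F] {k : ℕ} {ι : Type*} [DecidableEq ι]
    (B : Matrix (Fin k) ι F) (I0 : Fin k → ι) (h0 : plu B I0 ≠ 0) :
    (B.submatrix id I0) * NP_ech (plu B) I0 = B := by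
  set A := B.submatrix id I0 with hA
  have hdet : A.det = plu B I0 := rfl
  ext i j
  have h1 : A *ᵥ (Matrix.cramer A (fun i => B i j)) = A.det • (fun i => B i j) :=
    Matrix.mulVec_cramer A _
  have h2 : ∀ s, Matrix.cramer A (fun i => B i j) s = plu B (Function.update I0 s j) := by
    intro s
    rw [Matrix.cramer_apply]
    unfold plu
    congr 1
    ext i t
    simp only [Matrix.updateCol_apply, Matrix.submatrix_apply, id, Function.update_apply, hA]
    split_ifs <;> rfl
  have h3 := congrFun h1 i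
  simp only [Matrix.mulVec, dotProduct, Pi.smul_apply, smul_eq_mul, h2] at h3
  simp only [Matrix.mul_apply, NP_ech, Matrix.of_apply]
  rw [hdet] at h3
  calc ∑ s, A i s * (plu B (Function.update I0 s j) / plu B I0)
      = (∑ s, A i s * plu B (Function.update I0 s j)) / plu B I0 := by
        rw [Finset.sum_div]
        exact Finset.sum_congr rfl fun s _ => by ring
    _ = B i j := by rw [h3]; field_simp

/-- the row space is a function of the Pluecker vector. -/
theorem NP_span_eq {F : Type*} [Field F] {k : ℕ} {ι : Type*} [DecidableEq ι]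
    (B : Matrix (Fin k) ι F) (I0 : Fin k → ι) (h0 : plu B I0 ≠ 0) :
    Submodule.span F (Set.range B.row) = Submodule.span F (Set.range (NP_ech (plu B) I0).row) := by
  conv_lhs => rw [← NP_mul_ech B I0 h0]
  exact NP_span_mul _ h0 _

theorem NP_ech_smul {F : Type*} [Field F] {k : ℕ} {ι : Type*} [DecidableEq ι]
    (P : (Fin k → ι) → F) (c : F) (hc : c ≠ 0) (I0 : Fin k → ι) :
    NP_ech (c • P) I0 = NP_ech P I0 := by
  ext s j
  simp only [NP_ech, Matrix.of_apply, Pi.smul_apply, smul_eq_mul]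
  exact mul_div_mul_left _ _ hc

/-- independent rows over a field: some maximal minor is nonzero. -/
theorem NP_exists_minor {F : Type*} [Field F] {k : ℕ} {ι : Type*} [Fintype ι]
    (M : Matrix (Fin k) ι F) (h : LinearIndependent F M.row) :
    ∃ I : Fin k → ι, plu M I ≠ 0 := by
  classical
  have hr : M.rank = k := by simpa using h.rank_matrix
  rw [Matrix.rank_eq_finrank_span_cols] at hr
  obtain ⟨f, hfs, -, hli⟩ := Submodule.exists_fun_fin_finrank_span_eq F (Set.range M.col)
  choose J hJ using hfs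
  refine ⟨J ∘ (finCongr hr.symm), ?_⟩
  have hcol : (M.submatrix id (J ∘ (finCongr hr.symm))).col = f ∘ (finCongr hr.symm) := by
    funext s
    rw [Function.comp, ← hJ]
    rfl
  have hli' : LinearIndependent F (M.submatrix id (J ∘ (finCongr hr.symm))).col := by
    rw [hcol]
    exact hli.comp _ (finCongr hr.symm).injective
  have hu := Matrix.linearIndependent_cols_iff_isUnit.mp hli'
  exact ((Matrix.isUnit_iff_isUnit_det _).mp hu).ne_zero

/-- **Northcott for subspaces**: finitely many `k`-dimensional subspaces of `ι → ℚ` of bounded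
Pluecker height. -/
theorem northcott_plucker {k : ℕ} {ι : Type} [Fintype ι] [DecidableEq ι] (T : ℝ) :
    {W : Submodule ℚ (ι → ℚ) | ∃ B : Matrix (Fin k) ι ℚ, LinearIndependent ℚ B.row ∧
      Submodule.span ℚ (Set.range B.row) = W ∧ logHeight (plu B) ≤ T}.Finite := by
  classical
  obtain ⟨S, hS, hSx⟩ := NP_northcott_vec (κ := Fin k → ι) T
  let G : ((Fin k → ι) → ℤ) × (Fin k → ι) → Submodule ℚ (ι → ℚ) := fun x =>
    Submodule.span ℚ (Set.range (NP_ech (((↑) : ℤ → ℚ) ∘ x.1) x.2).row)
  apply ((hS.prod (Set.finite_univ (α := Fin k → ι))).image G).subset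
  rintro W ⟨B, hB, rfl, hT⟩
  obtain ⟨I0, hI0⟩ := NP_exists_minor B hB
  have hne : plu B ≠ 0 := fun h => hI0 (by rw [h]; rfl)
  obtain ⟨c, s, hs, hc, hP⟩ := hSx (plu B) hne hT
  refine ⟨(s, I0), ⟨hs, Set.mem_univ _⟩, ?_⟩
  simp only [G]
  rw [NP_span_eq B I0 hI0, hP, NP_ech_smul _ c hc]

end Fermat.Agent.S17Lib
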