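import Mathlib

/-!
# S17: Siegel's lemma in Plücker form (over `ℚ`)

For a `k`-dimensional subspace `W` of `ℚ^ι` (row space of `B`) there is a non-zero `w ∈ W` with
`logHeight w ≤ logHeight (Plücker vector of W) / k + log k`.
-/

set_option autoImplicit false
set_option linter.unusedSectionVars false

namespace Fermat.Agent.S17Lib

open Height Matrix

variable {k : ℕ} {ι : Type} [Fintype ι] [DecidableEq ι]

/-- the Plücker vector of the row space of `B`, indexed by all maps `Fin k → ι` -/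
def sgPlu {R : Type*} [CommRing R] (B : Matrix (Fin k) ι R) : (Fin k → ι) → R :=
  fun I => (B.submatrix id I).det

theorem sgPlu_mul {R : Type*} [CommRing R] (U : Matrix (Fin k) (Fin k) R) (B : Matrix (Fin k) ι R) :
    sgPlu (U * B) = U.det • sgPlu B := by
  funext I
  simp only [sgPlu, Pi.smul_apply, smul_eq_mul]
  rw [← Matrix.det_mul]
  congr 1

theorem sgPlu_map {R S : Type*} [CommRing R] [CommRing S] (f : R →+* S) (B : Matrix (Fin k) ι R)
    (I : Fin k → ι) : sgPlu (B.map f) I = f (sgPlu B I) := by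
  simp only [sgPlu]
  rw [RingHom.map_det]
  rfl

/-- over a field: independent rows give a non-zero maximal minor -/
theorem SG_exists_minor {F : Type*} [Field F] (M : Matrix (Fin k) ι F)
    (h : LinearIndependent F M.row) : ∃ I : Fin k → ι, sgPlu M I ≠ 0 := by
  have hr : M.rank = k := by simpa using h.rank_matrix
  obtain ⟨f, hf, -, hli⟩ := Submodule.exists_fun_fin_finrank_span_eq F (Set.range M.col)
  have hk : Module.finrank F (Submodule.span F (Set.range M.col)) = k := by
    rw [← Matrix.rank_eq_finrank_span_cols, hr]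
  choose J hJ using hf
  refine ⟨fun i => J (Fin.cast hk.symm i), ?_⟩
  have h2 : LinearIndependent F (M.submatrix id (fun i => J (Fin.cast hk.symm i))).col := by
    have h3 : (M.submatrix id (fun i => J (Fin.cast hk.symm i))).col
        = f ∘ (Fin.cast hk.symm) := by
      funext i
      rw [Function.comp_apply, ← hJ]
      rfl
    rw [h3]
    exact hli.comp _ (Fin.cast_injective _)
  rw [Matrix.linearIndependent_cols_iff_isUnit, Matrix.isUnit_iff_isUnit_det] at h2
  exact h2.ne_zero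

/-- one saturation step -/
theorem SG_step (B : Matrix (Fin k) ι ℤ) (p : ℕ) (hp : p.Prime)
    (hdiv : ∀ I, (p : ℤ) ∣ sgPlu B I) :
    ∃ (U : Matrix (Fin k) (Fin k) ℚ) (B₁ : Matrix (Fin k) ι ℤ) (a₀ : ℤ), 0 < a₀ ∧ a₀ < p ∧
      B₁.map (Int.castRingHom ℚ) = U * B.map (Int.castRingHom ℚ) ∧
      ∀ I, (p : ℤ) * sgPlu B₁ I = a₀ * sgPlu B I := by
  haveI : Fact p.Prime := ⟨hp⟩
  have hp0 : (p : ℚ) ≠ 0 := by exact_mod_cast hp.ne_zero
  set M := B.map (Int.castRingHom (ZMod p)) with hM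
  have h0 : ∀ I, sgPlu M I = 0 := by
    intro I
    rw [hM, sgPlu_map]
    exact (ZMod.intCast_zmod_eq_zero_iff_dvd _ p).2 (hdiv I)
  have hdep : ¬ LinearIndependent (ZMod p) M.row := fun hli => by
    obtain ⟨I, hI⟩ := SG_exists_minor M hli
    exact hI (h0 I)
  rw [Fintype.not_linearIndependent_iff] at hdep
  obtain ⟨c, hc, i₀, hi₀⟩ := hdep
  set a : Fin k → ℤ := fun i => ((c i).val : ℤ) with ha
  have hac : ∀ i, ((a i : ℤ) : ZMod p) = c i := by
    intro i
    simp [ha]
  have hdv : ∀ j, (p : ℤ) ∣ ∑ i, a i * B i j := by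
    intro j
    rw [← ZMod.intCast_zmod_eq_zero_iff_dvd]
    have h1 := congrFun hc j
    simp only [Finset.sum_apply, Pi.smul_apply, smul_eq_mul, Pi.zero_apply] at h1
    push_cast
    simp only [hac]
    exact h1
  choose r hr using hdv
  refine ⟨(1 : Matrix (Fin k) (Fin k) ℚ).updateRow i₀ (fun i => (a i : ℚ) / p),
    B.updateRow i₀ r, a i₀, ?_, ?_, ?_, ?_⟩
  · have : 0 < (c i₀).val := Nat.pos_of_ne_zero (by rwa [Ne, ZMod.val_eq_zero])
    show (0 : ℤ) < ((c i₀).val : ℤ)
    exact_mod_cast this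
  · show ((c i₀).val : ℤ) < (p : ℤ)
    exact_mod_cast ZMod.val_lt (c i₀)
  · ext i j
    by_cases hi : i = i₀
    · subst hi
      simp only [Matrix.map_apply, Matrix.updateRow_self, Matrix.mul_apply]
      have h2 : ((∑ l, a l * B l j : ℤ) : ℚ) = (p : ℚ) * r j := by
        rw [hr j]; push_cast; ring
      push_cast at h2
      simp only [eq_intCast]
      have h3 : ∀ x, (a x : ℚ) / p * (B x j : ℚ) = ((a x : ℚ) * (B x j : ℚ)) / p := by
        intro x; ring
      simp only [h3]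
      rw [← Finset.sum_div, h2]
      field_simp
    · simp only [Matrix.map_apply, Matrix.updateRow_ne hi, Matrix.mul_apply]
      simp [Matrix.one_apply, hi]
  · intro I
    have h1 : (B.updateRow i₀ r).submatrix id I
        = (B.submatrix id I).updateRow i₀ (r ∘ I) := by
      ext i j
      by_cases hi : i = i₀
      · subst hi; simp
      · simp [Matrix.updateRow_ne hi]
    have h2 : (p : ℤ) • (r ∘ I) = ∑ l, a l • (B.submatrix id I) l := by
      funext j
      simp only [Pi.smul_apply, Function.comp_apply, smul_eq_mul, Finset.sum_apply,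
        Matrix.submatrix_apply, id_eq]
      exact (hr (I j)).symm
    simp only [sgPlu]
    rw [h1, ← Matrix.det_updateRow_smul, h2, Matrix.det_updateRow_sum, smul_eq_mul]

/-- saturation: an integral matrix with the same rational row space and coprime minors -/
theorem SG_saturate (I₀ : Fin k → ι) : ∀ (n : ℕ) (B : Matrix (Fin k) ι ℤ),
    (sgPlu B I₀).natAbs = n → n ≠ 0 →
    ∃ (U : Matrix (Fin k) (Fin k) ℚ) (B' : Matrix (Fin k) ι ℤ), U.det ≠ 0 ∧
      B'.map (Int.castRingHom ℚ) = U * B.map (Int.castRingHom ℚ) ∧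
      ∀ p : ℕ, p.Prime → ∃ I, ¬ (p : ℤ) ∣ sgPlu B' I := by
  intro n
  induction n using Nat.strong_induction_on with
  | _ n ih =>
    intro B hB hn
    by_cases h : ∀ p : ℕ, p.Prime → ∃ I, ¬ (p : ℤ) ∣ sgPlu B I
    · exact ⟨1, B, by simp, by simp, h⟩
    · push Not at h
      obtain ⟨p, hp, hdiv⟩ := h
      obtain ⟨U₁, B₁, a₀, ha0, hap, hU₁, hrel⟩ := SG_step B p hp hdiv
      have hy : sgPlu B I₀ ≠ 0 := by
        intro h0
        rw [h0] at hB
        exact hn (by simpa using hB.symm)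
      have hx : sgPlu B₁ I₀ ≠ 0 := by
        intro h0
        have := hrel I₀
        rw [h0, mul_zero] at this
        exact (mul_ne_zero ha0.ne' hy) this.symm
      have hlt : (sgPlu B₁ I₀).natAbs < n := by
        have h1 := congrArg Int.natAbs (hrel I₀)
        rw [Int.natAbs_mul, Int.natAbs_mul, Int.natAbs_natCast, hB] at h1
        have h2 : a₀.natAbs < p := by omega
        have h3 : p * (sgPlu B₁ I₀).natAbs < p * n := by
          rw [h1]
          exact Nat.mul_lt_mul_of_pos_right h2 (Nat.pos_of_ne_zero hn)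
        exact Nat.lt_of_mul_lt_mul_left h3
      have hU₁det : U₁.det ≠ 0 := by
        intro h0
        have h1 : sgPlu (B₁.map (Int.castRingHom ℚ)) I₀ = 0 := by
          rw [hU₁, sgPlu_mul, h0, zero_smul]; rfl
        rw [sgPlu_map] at h1
        exact hx (by simpa using h1)
      obtain ⟨U₂, B', hU₂det, hU₂, hB'⟩ := ih _ hlt B₁ rfl (by simpa using hx)
      refine ⟨U₂ * U₁, B', ?_, ?_, hB'⟩
      · rw [Matrix.det_mul]
        exact mul_ne_zero hU₂det hU₁det
      · rw [hU₂, hU₁, Matrix.mul_assoc]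

/-- pigeonhole in the lattice `ℤ^k A` of index `|det A|` -/
theorem SGa_pigeon (A : Matrix (Fin k) (Fin k) ℤ) (hA : A.det ≠ 0) (T : ℕ)
    (hT : A.det.natAbs < (T + 1) ^ k) :
    ∃ a : Fin k → ℤ, a ≠ 0 ∧ ∀ i, |(a ᵥ* A) i| ≤ T := by
  set f : (Fin k → ℤ) →ₗ[ℤ] (Fin k → ℤ) := A.vecMulLinear with hf
  have hinj : Function.Injective f := by
    rw [injective_iff_map_eq_zero]
    intro a ha
    exact Matrix.eq_zero_of_vecMul_eq_zero hA ha
  set N := LinearMap.range f with hN
  let bN : Module.Basis (Fin k) ℤ N :=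
    (Pi.basisFun ℤ (Fin k)).map (LinearEquiv.ofInjective f hinj)
  have hcard := Submodule.natAbs_det_basis_change (Pi.basisFun ℤ (Fin k)) N bN
  have hrow : (Subtype.val ∘ bN : Fin k → Fin k → ℤ) = fun i => A i := by
    funext i
    simp only [Function.comp_apply, bN, Module.Basis.map_apply, Pi.basisFun_apply]
    show f (Pi.single i 1) = A i
    rw [hf, Matrix.vecMulLinear_apply, Matrix.single_one_vecMul]
    rfl
  rw [hrow, Pi.basisFun_det_apply] at hcard
  have hcard' : Nat.card ((Fin k → ℤ) ⧸ N) = A.det.natAbs := by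
    rw [← hcard]; rfl
  have hne : Nat.card ((Fin k → ℤ) ⧸ N) ≠ 0 := by
    rw [hcard']; simpa using hA
  haveI : Finite ((Fin k → ℤ) ⧸ N) := Nat.finite_of_card_ne_zero hne
  letI : Fintype ((Fin k → ℤ) ⧸ N) := Fintype.ofFinite _
  let g : (Fin k → Fin (T + 1)) → ((Fin k → ℤ) ⧸ N) :=
    fun x => Submodule.Quotient.mk (fun i => ((x i : ℕ) : ℤ))
  have hlt : Fintype.card ((Fin k → ℤ) ⧸ N) < Fintype.card (Fin k → Fin (T + 1)) := by
    rw [← Nat.card_eq_fintype_card, hcard']
    simpa using hT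
  obtain ⟨x, y, hxy, hg⟩ := Fintype.exists_ne_map_eq_of_card_lt g hlt
  rw [Submodule.Quotient.eq] at hg
  obtain ⟨a, ha⟩ := hg
  refine ⟨a, ?_, ?_⟩
  · rintro rfl
    rw [map_zero] at ha
    apply hxy
    funext i
    have := congrFun ha i
    simp only [Pi.zero_apply, Pi.sub_apply] at this
    apply Fin.ext
    omega
  · intro i
    have h1 : (a ᵥ* A) i = ((x i : ℕ) : ℤ) - ((y i : ℕ) : ℤ) := congrFun ha i
    rw [h1, abs_le]
    have := (x i).2
    have := (y i).2
    constructor <;> omega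

/-- Cramer's rule for the remaining coordinates -/
theorem SGa_cramer (B : Matrix (Fin k) ι ℤ) (I : Fin k → ι) (a : Fin k → ℤ) (j : ι) :
    sgPlu B I * (a ᵥ* B) j
      = ∑ i, (a ᵥ* B.submatrix id I) i * sgPlu B (Function.update I i j) := by
  set A := B.submatrix id I with hA
  set b : Fin k → ℤ := fun r => B r j with hb
  have h1 : (a ᵥ* B) j = a ⬝ᵥ b := rfl
  have h2 : ∀ i, sgPlu B (Function.update I i j) = A.cramer b i := by
    intro i
    rw [Matrix.cramer_apply]
    simp only [sgPlu]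
    congr 1
    ext r c
    by_cases hc : c = i
    · subst hc; simp [hb]
    · simp [Matrix.updateCol_ne hc, Function.update_of_ne hc, hA]
  have h3 : A.det • a = (a ᵥ* A) ᵥ* A.adjugate := by
    rw [Matrix.vecMul_vecMul, Matrix.mul_adjugate, Matrix.vecMul_smul, Matrix.vecMul_one]
  calc sgPlu B I * (a ᵥ* B) j = (A.det • a) ⬝ᵥ b := by
        rw [h1, smul_dotProduct, smul_eq_mul]; rfl
    _ = (a ᵥ* A) ⬝ᵥ (A.adjugate *ᵥ b) := by
        rw [h3, Matrix.dotProduct_mulVec]
    _ = ∑ i, (a ᵥ* A) i * sgPlu B (Function.update I i j) := by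
        rw [← Matrix.cramer_eq_adjugate_mulVec]
        simp only [dotProduct, h2]

/-- integral form of Siegel's lemma -/
theorem SG_int (hk : 0 < k) (B : Matrix (Fin k) ι ℤ) (I : Fin k → ι) (hI : sgPlu B I ≠ 0)
    (hmax : ∀ J, |sgPlu B J| ≤ |sgPlu B I|) :
    ∃ (a : Fin k → ℤ) (T : ℕ), a ≠ 0 ∧ 0 < T ∧ T ^ k ≤ (sgPlu B I).natAbs ∧
      ∀ j, |(a ᵥ* B) j| ≤ k * T := by
  set D := (sgPlu B I).natAbs with hD
  set T := Nat.nthRoot k D with hT
  have h1 : T ^ k ≤ D := Nat.pow_nthRoot_le (Or.inl hk.ne')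
  have h2 : D < (T + 1) ^ k := Nat.lt_pow_nthRoot_add_one hk.ne' D
  have hD0 : 0 < D := Int.natAbs_pos.2 hI
  have hT0 : 0 < T := by
    rcases Nat.eq_zero_or_pos T with h | h
    · rw [h] at h2
      simp at h2
      omega
    · exact h
  obtain ⟨a, ha, hb⟩ := SGa_pigeon (B.submatrix id I) hI T h2
  refine ⟨a, T, ha, hT0, h1, fun j => ?_⟩
  have h3 := SGa_cramer B I a j
  have h4 : |sgPlu B I| * |(a ᵥ* B) j| ≤ |sgPlu B I| * (k * T) := by
    rw [← abs_mul, h3]
    calc |∑ i, (a ᵥ* B.submatrix id I) i * sgPlu B (Function.update I i j)|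
        ≤ ∑ i, |(a ᵥ* B.submatrix id I) i * sgPlu B (Function.update I i j)| :=
          Finset.abs_sum_le_sum_abs _ _
      _ ≤ ∑ _i : Fin k, (T : ℤ) * |sgPlu B I| := by
          apply Finset.sum_le_sum
          intro i _
          rw [abs_mul]
          exact mul_le_mul (hb i) (hmax _) (abs_nonneg _) (by positivity)
      _ = |sgPlu B I| * (k * T) := by
          simp; ring
  exact le_of_mul_le_mul_left h4 (abs_pos.2 hI)

/-- the height of an integral vector is at most the log of its sup norm -/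
theorem SG_logHeight_le {κ : Type} [Fintype κ] (w : κ → ℤ) (hw : w ≠ 0) (C : ℝ)
    (hC : ∀ j, |(w j : ℝ)| ≤ C) : logHeight (fun j => (w j : ℚ)) ≤ Real.log C := by
  obtain ⟨j₀, hj₀⟩ : ∃ j, w j ≠ 0 := by
    by_contra h
    push Not at h
    exact hw (funext h)
  haveI : Nonempty κ := ⟨j₀⟩
  obtain ⟨g, hg, hgcd⟩ := Finset.extract_gcd w (Finset.univ_nonempty)
  set γ := Finset.univ.gcd w with hγ
  have hγ0 : γ ≠ 0 := by
    intro h0
    have := hg j₀ (Finset.mem_univ _)
    rw [h0, zero_mul] at this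
    exact hj₀ this
  have h1 : (fun j => (w j : ℚ)) = (γ : ℚ) • (((↑) : ℤ → ℚ) ∘ g) := by
    funext j
    simp only [Pi.smul_apply, Function.comp_apply, smul_eq_mul]
    rw [hg j (Finset.mem_univ _)]
    push_cast
    ring
  rw [h1, logHeight_smul_eq_logHeight _ (by exact_mod_cast hγ0),
    Rat.logHeight_eq_max_abs_of_gcd_eq_one hgcd]
  have hle : ∀ j, |g j| ≤ |w j| := by
    intro j
    rw [hg j (Finset.mem_univ _), abs_mul]
    have : 1 ≤ |γ| := Int.one_le_abs hγ0
    nlinarith [abs_nonneg (g j)]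
  have hg0 : g j₀ ≠ 0 := by
    intro h0
    have := hg j₀ (Finset.mem_univ _)
    rw [h0, mul_zero] at this
    exact hj₀ this
  have hpos : 0 < ⨆ i, |g i| :=
    lt_of_lt_of_le (abs_pos.2 hg0)
      (le_ciSup (f := fun i => |g i|) (Set.finite_range _).bddAbove j₀)
  apply Real.log_le_log (by exact_mod_cast hpos)
  obtain ⟨i, hi⟩ := exists_eq_ciSup_of_finite (f := fun i => |g i|)
  rw [← hi]
  calc ((|g i| : ℤ) : ℝ) ≤ ((|w i| : ℤ) : ℝ) := by exact_mod_cast hle i
    _ = |(w i : ℝ)| := by push_cast; rfl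
    _ ≤ C := hC i

/-- the height of the Plücker vector of an integral matrix with coprime minors -/
theorem SG_logHeight_sgPlu (B : Matrix (Fin k) ι ℤ) (I : Fin k → ι) (hI : sgPlu B I ≠ 0)
    (hmax : ∀ J, |sgPlu B J| ≤ |sgPlu B I|)
    (hprim : ∀ p : ℕ, p.Prime → ∃ J, ¬ (p : ℤ) ∣ sgPlu B J) :
    logHeight (sgPlu (B.map (Int.castRingHom ℚ))) = Real.log ((sgPlu B I).natAbs : ℝ) := by
  haveI : Nonempty (Fin k → ι) := ⟨I⟩
  have hgcd : Finset.univ.gcd (sgPlu B) = 1 := by
    by_contra hne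
    set γ := Finset.univ.gcd (sgPlu B) with hγ
    have hγ0 : γ ≠ 0 := by
      intro h0
      rw [hγ, Finset.gcd_eq_zero_iff] at h0
      exact hI (h0 I (Finset.mem_univ _))
    have hnn : 0 ≤ γ := by
      have := Finset.normalize_gcd (s := Finset.univ) (f := sgPlu B)
      rw [← hγ] at this
      rw [← this]
      exact Int.nonneg_of_normalize_eq_self (by rw [normalize_idem])
    have h1 : γ.natAbs ≠ 1 := by
      intro h1
      apply hne
      omega
    obtain ⟨p, hp, hpd⟩ := Nat.exists_prime_and_dvd h1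
    obtain ⟨J, hJ⟩ := hprim p hp
    apply hJ
    have h2 : (p : ℤ) ∣ γ := Int.natCast_dvd.2 hpd
    exact h2.trans (Finset.gcd_dvd (Finset.mem_univ J))
  have h1 : sgPlu (B.map (Int.castRingHom ℚ)) = ((↑) : ℤ → ℚ) ∘ (sgPlu B) := by
    funext J
    rw [sgPlu_map]
    rfl
  rw [h1, Rat.logHeight_eq_max_abs_of_gcd_eq_one hgcd]
  congr 1
  have h2 : (⨆ J, |sgPlu B J|) = |sgPlu B I| :=
    le_antisymm (ciSup_le hmax)
      (le_ciSup (f := fun J => |sgPlu B J|) (Set.finite_range _).bddAbove I)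
  rw [h2]
  push_cast
  rw [Nat.cast_natAbs]
  push_cast
  rfl

/-- **Siegel's lemma, Plücker form.** -/
theorem siegel_plucker (hk : 0 < k) (B : Matrix (Fin k) ι ℚ) (hB : LinearIndependent ℚ B.row) :
    ∃ a : Fin k → ℚ, a ≠ 0 ∧
      logHeight (a ᵥ* B)
        ≤ logHeight (fun I : Fin k → ι => (B.submatrix id I).det) / k + Real.log k := by
  change ∃ a : Fin k → ℚ, a ≠ 0 ∧ logHeight (a ᵥ* B) ≤ logHeight (sgPlu B) / k + Real.log k
  -- clear denominators
  obtain ⟨d, hd⟩ := IsLocalization.exist_integer_multiples_of_finite (nonZeroDivisors ℤ)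
    (fun ij : Fin k × ι => B ij.1 ij.2)
  choose z hz using hd
  have hd0 : ((d : ℤ) : ℚ) ≠ 0 := by
    exact_mod_cast nonZeroDivisors.ne_zero d.2
  set B₀ : Matrix (Fin k) ι ℤ := Matrix.of fun i j => z (i, j) with hB₀
  set U₀ : Matrix (Fin k) (Fin k) ℚ := ((d : ℤ) : ℚ) • 1 with hU₀
  have hB₀rel : B₀.map (Int.castRingHom ℚ) = U₀ * B := by
    ext i j
    have := hz (i, j)
    simp only [hU₀, Matrix.smul_mul, Matrix.one_mul, Matrix.smul_apply, Matrix.map_apply, hB₀,
      Matrix.of_apply, smul_eq_mul]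
    simpa [Algebra.smul_def] using this
  have hU₀det : U₀.det ≠ 0 := by
    rw [hU₀, Matrix.det_smul, Matrix.det_one, mul_one]
    exact pow_ne_zero _ hd0
  obtain ⟨I₀, hI₀⟩ := SG_exists_minor B hB
  have hI₀' : sgPlu B₀ I₀ ≠ 0 := by
    intro h0
    have h1 : sgPlu (B₀.map (Int.castRingHom ℚ)) I₀ = 0 := by
      rw [sgPlu_map, h0, map_zero]
    rw [hB₀rel, sgPlu_mul, Pi.smul_apply, smul_eq_mul] at h1
    exact (mul_ne_zero hU₀det hI₀) h1
  obtain ⟨U, B', hUdet, hrel, hprim⟩ :=
    SG_saturate I₀ _ B₀ rfl (by simpa using hI₀')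
  haveI : Nonempty (Fin k → ι) := ⟨I₀⟩
  obtain ⟨I, hmax⟩ := Finite.exists_max (fun J => |sgPlu B' J|)
  have hI : sgPlu B' I ≠ 0 := by
    obtain ⟨J, hJ⟩ := hprim 2 Nat.prime_two
    intro h0
    have h1 := hmax J
    rw [h0, abs_zero] at h1
    have h2 : sgPlu B' J = 0 := abs_eq_zero.1 (le_antisymm h1 (abs_nonneg _))
    exact hJ (h2 ▸ dvd_zero _)
  obtain ⟨a, T, ha, hT0, hTD, hbd⟩ := SG_int hk B' I hI hmax
  set Ut := U * U₀ with hUt
  have hUtdet : Ut.det ≠ 0 := by
    rw [hUt, Matrix.det_mul]; exact mul_ne_zero hUdet hU₀det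
  have hrel' : B'.map (Int.castRingHom ℚ) = Ut * B := by
    rw [hrel, hB₀rel, hUt, Matrix.mul_assoc]
  set aq : Fin k → ℚ := fun i => (a i : ℚ) with haq
  have haq0 : aq ≠ 0 := by
    intro h0
    apply ha
    funext i
    have := congrFun h0 i
    simpa [haq] using this
  set w : ι → ℤ := a ᵥ* B' with hw
  have hw0 : w ≠ 0 := by
    intro h0
    apply ha
    apply Matrix.eq_zero_of_vecMul_eq_zero (M := B'.submatrix id I) hI
    funext i
    have := congrFun h0 (I i)
    simpa [hw, Matrix.vecMul, dotProduct] using this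
  have hwq : (aq ᵥ* Ut) ᵥ* B = fun j => (w j : ℚ) := by
    rw [Matrix.vecMul_vecMul, ← hrel']
    funext j
    simp [hw, haq, Matrix.vecMul, dotProduct]
  refine ⟨aq ᵥ* Ut, ?_, ?_⟩
  · intro h0
    exact haq0 (Matrix.eq_zero_of_vecMul_eq_zero hUtdet h0)
  · rw [hwq]
    have h1 : logHeight (fun j => (w j : ℚ)) ≤ Real.log ((k : ℝ) * T) := by
      apply SG_logHeight_le w hw0
      intro j
      have := hbd j
      have h2 : ((|w j| : ℤ) : ℝ) ≤ ((k * T : ℤ) : ℝ) := by exact_mod_cast this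
      push_cast at h2
      exact h2
    have h2 : logHeight (sgPlu B) = Real.log ((sgPlu B' I).natAbs : ℝ) := by
      rw [← SG_logHeight_sgPlu B' I hI hmax hprim, hrel', sgPlu_mul,
        logHeight_smul_eq_logHeight _ hUtdet]
    have hkR : (0 : ℝ) < k := by exact_mod_cast hk
    have hTR : (0 : ℝ) < T := by exact_mod_cast hT0
    have h3 : (k : ℝ) * Real.log T ≤ Real.log ((sgPlu B' I).natAbs : ℝ) := by
      rw [← Real.log_pow]
      apply Real.log_le_log (by positivity)
      exact_mod_cast hTD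
    rw [h2]
    calc logHeight (fun j => (w j : ℚ)) ≤ Real.log ((k : ℝ) * T) := h1
      _ = Real.log T + Real.log k := by
          rw [Real.log_mul hkR.ne' hTR.ne']; ring
      _ ≤ Real.log ((sgPlu B' I).natAbs : ℝ) / k + Real.log k := by
          have : Real.log T ≤ Real.log ((sgPlu B' I).natAbs : ℝ) / k := by
            rw [le_div_iff₀ hkR]; linarith
          linarith

end Fermat.Agent.S17Lib
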