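import Mathlib
import Fermat.Agent.S17.UnifHM

/-!
# S17 block UNIF: (HM) for two and three blocks of variables (sum types)
-/

set_option autoImplicit false

namespace S17Lib

open MvPolynomial Height Height.AdmissibleAbsValues Function

variable {K : Type*} [Field K] [AdmissibleAbsValues K]

section blocks

variable {σ α ι : Type*}

/-- identification of a block with a parametrisation of the fibre -/
noncomputable def blkEquiv (b : σ → α) (a : α) (e : ι → σ) (he : Injective e)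
    (hr : ∀ i, b i = a ↔ i ∈ Set.range e) : ι ≃ {i // b i = a} :=
  Equiv.ofBijective (fun i ↦ ⟨e i, (hr _).2 ⟨i, rfl⟩⟩)
    ⟨fun i j h ↦ he (congrArg Subtype.val h), fun ⟨i, hi⟩ ↦ by
      obtain ⟨j, rfl⟩ := (hr i).1 hi
      exact ⟨j, rfl⟩⟩

theorem logHeight_blk (b : σ → α) (z : σ → K) (a : α) (e : ι → σ) (he : Injective e)
    (hr : ∀ i, b i = a ↔ i ∈ Set.range e) : logHeight (blk b z a) = logHeight (z ∘ e) := by
  rw [← logHeight_comp_equiv (blkEquiv b a e he hr) (blk b z a)]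
  rfl

omit [AdmissibleAbsValues K] in
theorem blk_ne_zero (b : σ → α) (z : σ → K) (a : α) (e : ι → σ)
    (hr : ∀ i, b i = a ↔ i ∈ Set.range e) (hz : z ∘ e ≠ 0) : blk b z a ≠ 0 := by
  obtain ⟨i, hi⟩ := Function.ne_iff.mp hz
  exact Function.ne_iff.mpr ⟨⟨e i, (hr _).2 ⟨i, rfl⟩⟩, hi⟩

end blocks

section two

variable {ι₁ ι₂ ι' : Type*}

/-- the block map for two blocks -/
def b2 : ι₁ ⊕ ι₂ → Fin 2 := Sum.elim (fun _ ↦ 0) (fun _ ↦ 1)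

theorem b2_zero (i : ι₁ ⊕ ι₂) : b2 i = 0 ↔ i ∈ Set.range (Sum.inl : ι₁ → ι₁ ⊕ ι₂) := by
  rcases i with i | i <;> simp [b2]

theorem b2_one (i : ι₁ ⊕ ι₂) : b2 i = 1 ↔ i ∈ Set.range (Sum.inr : ι₂ → ι₁ ⊕ ι₂) := by
  rcases i with i | i <;> simp [b2]

omit [AdmissibleAbsValues K] in
theorem scl_b2 (s : Fin 2 → K) (x : ι₁ → K) (y : ι₂ → K) :
    scl b2 s (Sum.elim x y) = Sum.elim (s 0 • x) (s 1 • y) := by
  funext i
  rcases i with i | i <;> simp [scl, b2]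

omit [AdmissibleAbsValues K] in
theorem isMultiHom_b2 {N₁ N₂ : ℕ} {p : MvPolynomial (ι₁ ⊕ ι₂) K}
    (hp : ∀ (s t : K) (x : ι₁ → K) (y : ι₂ → K),
      eval (Sum.elim (s • x) (t • y)) p = s ^ N₁ * t ^ N₂ * eval (Sum.elim x y) p) :
    IsMultiHom b2 ![N₁, N₂] p := by
  intro s z
  obtain ⟨x, y, rfl⟩ : ∃ x y, z = Sum.elim x y := ⟨z ∘ Sum.inl, z ∘ Sum.inr, by simp⟩
  rw [scl_b2, hp, Fin.prod_univ_two]
  rfl

omit [AdmissibleAbsValues K] in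
theorem isCone_b2 {I : Set (MvPolynomial (ι₁ ⊕ ι₂) K)}
    (hI : ∀ (s t : K) (x : ι₁ → K) (y : ι₂ → K), s ≠ 0 → t ≠ 0 →
      (∀ f ∈ I, eval (Sum.elim x y) f = 0) → ∀ f ∈ I, eval (Sum.elim (s • x) (t • y)) f = 0) :
    IsCone b2 I := by
  intro s z hs hz
  obtain ⟨x, y, rfl⟩ : ∃ x y, z = Sum.elim x y := ⟨z ∘ Sum.inl, z ∘ Sum.inr, by simp⟩
  rw [scl_b2]
  exact hI _ _ x y (hs 0) (hs 1) hz

variable [Finite ι₁] [Finite ι₂] [Fintype ι']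

theorem sum_b2 (N₁ N₂ : ℕ) (x : ι₁ → K) (y : ι₂ → K) :
    ∑ a, (![N₁, N₂] a : ℕ) * logHeight (blk b2 (Sum.elim x y) a) =
      N₁ * logHeight x + N₂ * logHeight y := by
  rw [Fin.sum_univ_two, logHeight_blk b2 _ 0 Sum.inl Sum.inl_injective b2_zero,
    logHeight_blk b2 _ 1 Sum.inr Sum.inr_injective b2_one]
  simp

omit [AdmissibleAbsValues K] [Finite ι₁] [Finite ι₂] in
theorem blk_b2_ne {x : ι₁ → K} {y : ι₂ → K} (hx : x ≠ 0) (hy : y ≠ 0) (a : Fin 2) :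
    blk b2 (Sum.elim x y) a ≠ 0 := by
  fin_cases a
  · exact blk_ne_zero b2 _ 0 Sum.inl b2_zero (by simpa using hx)
  · exact blk_ne_zero b2 _ 1 Sum.inr b2_one (by simpa using hy)

/-- (HM) upper bound, two blocks. -/
theorem hm_le₂ (N₁ N₂ : ℕ) (p : ι' → MvPolynomial (ι₁ ⊕ ι₂) K)
    (hp : ∀ j (s t : K) (x : ι₁ → K) (y : ι₂ → K),
      eval (Sum.elim (s • x) (t • y)) (p j) = s ^ N₁ * t ^ N₂ * eval (Sum.elim x y) (p j)) :
    ∃ C : ℝ, ∀ (x : ι₁ → K) (y : ι₂ → K), x ≠ 0 → y ≠ 0 →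
      logHeight (fun j ↦ eval (Sum.elim x y) (p j)) ≤
        N₁ * logHeight x + N₂ * logHeight y + C := by
  obtain ⟨C, hC⟩ := hm_le b2 ![N₁, N₂] p fun j ↦ isMultiHom_b2 (hp j)
  refine ⟨C, fun x y hx hy ↦ ?_⟩
  have := hC (Sum.elim x y) (blk_b2_ne hx hy)
  rwa [sum_b2] at this

/-- (HM) lower bound, two blocks, on a closed bicone. -/
theorem hm_ge₂ (N₁ N₂ : ℕ) (I : Set (MvPolynomial (ι₁ ⊕ ι₂) K))
    (p : ι' → MvPolynomial (ι₁ ⊕ ι₂) K)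
    (hp : ∀ j (s t : K) (x : ι₁ → K) (y : ι₂ → K),
      eval (Sum.elim (s • x) (t • y)) (p j) = s ^ N₁ * t ^ N₂ * eval (Sum.elim x y) (p j))
    (hI : ∀ (s t : K) (x : ι₁ → K) (y : ι₂ → K), s ≠ 0 → t ≠ 0 →
      (∀ f ∈ I, eval (Sum.elim x y) f = 0) → ∀ f ∈ I, eval (Sum.elim (s • x) (t • y)) f = 0)
    (hnv : ∀ (x : ι₁ → AlgebraicClosure K) (y : ι₂ → AlgebraicClosure K),
      (∀ f ∈ I, aeval (Sum.elim x y) f = 0) → (∀ j, aeval (Sum.elim x y) (p j) = 0) →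
        x = 0 ∨ y = 0) :
    ∃ C : ℝ, ∀ (x : ι₁ → K) (y : ι₂ → K), x ≠ 0 → y ≠ 0 →
      (∀ f ∈ I, eval (Sum.elim x y) f = 0) →
      N₁ * logHeight x + N₂ * logHeight y ≤
        logHeight (fun j ↦ eval (Sum.elim x y) (p j)) + C := by
  obtain ⟨C, hC⟩ := hm_ge b2 ![N₁, N₂] I p (fun j ↦ isMultiHom_b2 (hp j)) (isCone_b2 hI) (by
    intro z hz hpz
    obtain ⟨x, y, rfl⟩ : ∃ x y, z = Sum.elim x y := ⟨z ∘ Sum.inl, z ∘ Sum.inr, by simp⟩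
    rcases hnv x y hz hpz with rfl | rfl
    · refine ⟨0, fun i hi ↦ ?_⟩
      obtain ⟨j, rfl⟩ := (b2_zero i).1 hi
      rfl
    · refine ⟨1, fun i hi ↦ ?_⟩
      obtain ⟨j, rfl⟩ := (b2_one i).1 hi
      rfl)
  refine ⟨C, fun x y hx hy hxy ↦ ?_⟩
  have := hC (Sum.elim x y) (blk_b2_ne hx hy) hxy
  rwa [sum_b2] at this

end two

end S17Lib
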